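import Fermat.Agent.Flat.Split.Lin
import Fermat.Agent.Flat.Twist
import Fermat.Agent.Flat.Hecke.FlatModule

/-!
# Quotients of the `p`-adic homomorphisms of `Γ_H` are flat at `p`

For `N`, `Δ`, `M` as in `Split.Inject` and `p` prime to `M`, a finite Galois module which is
a quotient of a power of the homomorphisms of `Γ_H` into `ℤ_p` is a subquotient of twisted powers
of the modules of level `M N²`.
-/

set_option autoImplicit false

open CongruenceSubgroup
open scoped MatrixGroups
open ModularCurve ModularCurve.Period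
open FermatAgent.HM
open FermatAgent.Period (parRank parabolicCoords parElt)
open FermatAgent.GaloisBasic (Qbar GQ)
open FermatAgent.ES (padChar galChar parGroup)

noncomputable section

namespace FermatAgent.Flat.Split

variable (p : ℕ) [hp : Fact p.Prime]

/-- Inertia at `p ∤ N` fixes roots of unity of order `N`. -/
theorem cycloN_inertia {N : ℕ} [NeZero N] (hN : ¬ p ∣ N) {A : ValuationSubring Qbar}
    (hA : A.LiesOverPrime p) {g : GQ} (hg : g ∈ A.inertiaSubgroupIn ℚ) : cycloN N g = 1 :=
  cycloN_eq fun t ht => by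
    rw [Mazur.inertia_fixes_rootsOfUnity hp.out hA hN (NeZero.ne N) hg ht, Units.val_one,
      ZMod.val_one_eq_one_mod, ← pow_eq_pow_mod _ ht, pow_one]

/-- An open subgroup fixes roots of unity of order `N`. -/
theorem exists_level_cycloN_fix (N : ℕ) [NeZero N] :
    ∃ L : IntermediateField ℚ Qbar, FiniteDimensional ℚ L ∧
      ∀ g ∈ L.fixingSubgroup, cycloN N g = 1 := by
  obtain ⟨L, hL, h⟩ := exists_level_cycloN N
  exact ⟨L, hL, fun g hg => h g ((IntermediateField.mem_fixingSubgroup_iff _ _).mp hg)⟩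

section Perm

variable (N : ℕ) (X : Type) [AddCommGroup X]

/-- Permutation of the components by the cyclotomic character. -/
def permAct [NeZero N] : GQ →* AddMonoid.End (ZMod N → X) where
  toFun g := AddMonoidHom.mk' (fun f u => f (((cycloN N g)⁻¹ : (ZMod N)ˣ) * u)) fun _ _ => rfl
  map_one' := AddMonoidHom.ext fun f => funext fun u => by
    show f _ = f u
    rw [map_one, inv_one, Units.val_one, one_mul]
  map_mul' g h := AddMonoidHom.ext fun f => funext fun u => by
    show f _ = f _
    rw [map_mul, mul_inv_rev, Units.val_mul, mul_assoc]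

end Perm

variable {p} {L : ℕ} [NeZero L]

section Perms

variable {Y : Type} [AddCommGroup Y] [DistribMulAction GQ Y]

/-- Galois on powers of the translates: components are permuted. -/
def splitAct (Y : Type) [AddCommGroup Y] [DistribMulAction GQ Y] (N : ℕ) [NeZero N] (I : Type) :
    GQ →* AddMonoid.End (I → ZMod N → Y) where
  toFun g := AddMonoidHom.mk' (fun f i u => g • f i (((cycloN N g)⁻¹ : (ZMod N)ˣ) * u))
    fun f f' => funext fun i => funext fun u => smul_add g _ _
  map_one' := AddMonoidHom.ext fun f => funext fun i => funext fun u => by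
    show (1 : GQ) • f i _ = f i u
    rw [one_smul, map_one, inv_one, Units.val_one, one_mul]
  map_mul' g h := AddMonoidHom.ext fun f => funext fun i => funext fun u => by
    show (g * h) • f i _ = g • (h • f i _)
    rw [← mul_smul, map_mul, mul_inv_rev, Units.val_mul, mul_assoc]

theorem isFlatAct_splitAct {N : ℕ} [NeZero N] (hN : ¬ p ∣ N) (I : Type) [Finite I]
    (h : IsFlatAct p (compAct Y (ZMod N))) : IsFlatAct p (splitAct Y N I) := by
  let ρ₀ : GQ →* AddMonoid.End (I → ZMod N → Y) :=
    { toFun g := AddMonoidHom.mk' (fun f i u => g • f i u)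
        fun f f' => funext fun i => funext fun u => smul_add g _ _
      map_one' := AddMonoidHom.ext fun f => funext fun i => funext fun u => one_smul GQ _
      map_mul' g h := AddMonoidHom.ext fun f => funext fun i => funext fun u => mul_smul g h _ }
  have h0 : IsFlatAct p ρ₀ := h.pi ρ₀ fun σ f i => rfl
  let θ : GQ →* AddMonoid.End (I → ZMod N → Y) :=
    { toFun g := AddMonoidHom.mk' (fun f i => permAct N Y g (f i))
        fun f f' => funext fun i => map_add (permAct N Y g) _ _
      map_one' := AddMonoidHom.ext fun f => funext fun i => by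
        show permAct N Y 1 (f i) = f i
        rw [map_one]; rfl
      map_mul' g h := AddMonoidHom.ext fun f => funext fun i => by
        show permAct N Y (g * h) (f i) = permAct N Y g (permAct N Y h (f i))
        rw [map_mul]; rfl }
  have hθ : ∀ g, cycloN N g = 1 → θ g = 1 := fun g hg =>
    AddMonoidHom.ext fun f => funext fun i => funext fun u => by
      show f i _ = f i u
      rw [hg, inv_one, Units.val_one, one_mul]
  refine h0.twist θ (fun σ f => rfl) (fun σ τ f => rfl) ?_ fun A hA σ hσ =>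
    hθ σ (cycloN_inertia p hN hA hσ)
  obtain ⟨L₀, hL₀, h⟩ := exists_level_cycloN_fix N
  exact ⟨L₀, hL₀, fun σ hσ => hθ σ (h σ hσ)⟩

end Perms

/-- Artin–Rees: for an injective map to powers of the homomorphisms of `Γ₀(L)`, what vanishes in
level `p ^ e` is divisible by `p ^ k`, for a large enough `e`. -/
theorem exists_level_of_padChar_eq_one {P U : Type} [AddCommGroup P] [Module ℤ_[p] P] [Finite U]
    (k : ℕ) (Λ : P →ₗ[ℤ_[p]] U → parabolicHoms ℤ_[p] (Gamma0 L) ℤ_[p])
    (hΛ : Function.Injective Λ) :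
    ∃ e : ℕ, ∀ Φ, (∀ u, padChar p e (Λ Φ u) = 1) → ∃ Φ', Φ = p ^ k • Φ' := by
  have : Module.Finite ℤ_[p] (parabolicHoms ℤ_[p] (Gamma0 L) ℤ_[p]) :=
    Module.Finite.equiv (parabolicCoords (Gamma0 L) ℤ_[p] ℤ_[p]).symm
  obtain ⟨c, hc⟩ := Ideal.exists_pow_inf_eq_pow_smul (Ideal.span {(p : ℤ_[p])})
    (LinearMap.range Λ)
  refine ⟨k + c, fun Φ hΦ => ?_⟩
  set C := parabolicCoords (Gamma0 L) ℤ_[p] ℤ_[p]
  have hd : ∀ u j, (p : ℤ_[p]) ^ (k + c) ∣ C (Λ Φ u) j := fun u j => by
    have h1 := DFunLike.congr_fun (congrArg Subtype.val (hΦ u)) (parElt (Gamma0 L) j)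
    rw [ES.padChar_apply, OneMemClass.coe_one, MonoidHom.one_apply, ES.zU_ne_iff,
      ← RingHom.mem_ker, PadicInt.ker_toZModPow, Ideal.mem_span_singleton] at h1
    exact h1
  choose d hd using hd
  have hmem : Λ Φ ∈ Ideal.span {(p : ℤ_[p])} ^ (k + c) • (⊤ : Submodule ℤ_[p] _) ⊓
      LinearMap.range Λ := by
    refine ⟨?_, LinearMap.mem_range_self Λ Φ⟩
    rw [Ideal.span_singleton_pow, Submodule.ideal_span_singleton_smul]
    refine ⟨fun u => C.symm (d u), Submodule.mem_top, funext fun u => C.injective ?_⟩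
    show C ((p : ℤ_[p]) ^ (k + c) • C.symm (d u)) = _
    rw [map_smul, LinearEquiv.apply_symm_apply]
    exact funext fun j => (hd u j).symm
  rw [hc (k + c) (Nat.le_add_left c k), Nat.add_sub_cancel, Ideal.span_singleton_pow,
    Submodule.ideal_span_singleton_smul] at hmem
  obtain ⟨w, ⟨-, ⟨Φ', rfl⟩⟩, hw⟩ := hmem
  refine ⟨Φ', hΛ ?_⟩
  rw [← hw, map_nsmul, ← Nat.cast_smul_eq_nsmul ℤ_[p], Nat.cast_pow]
  rfl

variable {Δ : Type*} [CommGroup Δ] [Finite Δ] {N M : ℕ} [NeZero N] [NeZero M]
variable {δ : (ZMod N)ˣ →* Δ} {hNM : N ∣ M} (hneg : δ (-1) = 1)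

/-- **Finite quotients of powers of the homomorphisms of `Γ_H` are flat at `p ∤ M`**: a finite
Galois module killed by a power of `p` which is an equivariant quotient of a power of the
`ℤ_p`-valued parabolic homomorphisms of `Γ_H` has a coordinate system at every place over `p`. -/
theorem isFlatAct_of_parHoms (hN : Squarefree N) (hδ : Function.Surjective δ)
    (hodd : Odd (Nat.card Δ)) (hM : ∀ q : ℕ, q.Prime → q ∣ N → ¬ q ^ 2 ∣ M) (hpM : ¬ p ∣ M)
    {X : Type} [AddCommGroup X] {k : ℕ} (hX : ∀ x : X, p ^ k • x = 0)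
    {ρ : GQ →* AddMonoid.End X} {I : Type} [Finite I]
    (tot : (I → parabolicHoms ℤ_[p] (gammaH δ hNM) ℤ_[p]) →+ X) (htot : Function.Surjective tot)
    (heq : ∀ g b, ρ g (tot b) = tot fun i => galParLin p hneg g (b i)) : IsFlatAct p ρ := by
  classical
  have : Fintype I := Fintype.ofFinite I
  have hpN : ¬ p ∣ N := fun h => hpM (h.trans hNM)
  have hpL : ¬ p ∣ M * N ^ 2 := fun h =>
    (hp.out.dvd_mul.mp h).elim hpM fun h2 => hpN (hp.out.dvd_of_dvd_pow h2)
  have hsq := sq_eq_one_of_odd (δ := δ) hodd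
  set Λ := splitLin (R := ℤ_[p]) hNM hsq hN
  have hΛ := splitLin_injective hNM hsq p hN hδ hodd hM
  obtain ⟨e, hsmall⟩ := exists_level_of_padChar_eq_one (p := p) k Λ hΛ
  -- the map to the split level
  have hY : IsFlatAct p (splitAct (Additive (Hecke.padRange p (M * N ^ 2) e)) N I) :=
    isFlatAct_splitAct hpN I (Hecke.isFlatAct_padRange p (M * N ^ 2) hpL e (ZMod N))
  let q : (I → parabolicHoms ℤ_[p] (gammaH δ hNM) ℤ_[p]) →+
      (I → ZMod N → Additive (Hecke.padRange p (M * N ^ 2) e)) :=
    AddMonoidHom.mk' (fun b i u => Additive.ofMul ⟨padChar p e (Λ (b i) u),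
      Hecke.padChar_mem p (M * N ^ 2) e _⟩) fun b b' => funext fun i => funext fun u =>
        Additive.toMul.injective (Subtype.ext (by
          show padChar p e (Λ (b i + b' i) u) = padChar p e (Λ (b i) u) * padChar p e (Λ (b' i) u)
          rw [map_add, Pi.add_apply, ES.padChar_add]))
  have hker : ∀ b, q b = 0 → tot b = 0 := fun b hb => by
    choose b' hb' using fun i => hsmall (b i) fun u =>
      congrArg (fun z : Additive (Hecke.padRange p (M * N ^ 2) e) =>
        ((z.toMul : _) : parGroup (Gamma0 (M * N ^ 2)) (p ^ e))) (congrFun (congrFun hb i) u)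
    rw [show b = p ^ k • b' from funext hb', map_nsmul, hX]
  let gB : GQ → (I → parabolicHoms ℤ_[p] (gammaH δ hNM) ℤ_[p]) →
      (I → parabolicHoms ℤ_[p] (gammaH δ hNM) ℤ_[p]) := fun g b i => galParLin p hneg g (b i)
  have hqg : ∀ g b, q (gB g b) =
      splitAct (Additive (Hecke.padRange p (M * N ^ 2) e)) N I g (q b) := fun g b =>
    funext fun i => funext fun u => Additive.toMul.injective (Subtype.ext (by
      show padChar p e (Λ (galParLin p hneg g (b i)) u) =
        galChar (ES.goodLevel_Gamma0 (M * N ^ 2)) (p ^ e) g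
          (padChar p e (Λ (b i) (((cycloN N g)⁻¹ : (ZMod N)ˣ) * u)))
      rw [← ES.padChar_galPad, galPad_splitLin hNM hsq p hN hneg, ← mul_assoc, Units.mul_inv,
        one_mul]))
  exact isFlatAct_of_range hY q tot htot hker gB hqg heq

end FermatAgent.Flat.Split
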