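import Mathlib

/-!
# Convolution by characters of the local factors of `(ℤ/N)ˣ`

For squarefree `N` and a prime `q ∣ N` the units congruent to one modulo `N / q` act on the
multiples of `N / q`.  In characteristic zero a function killed by convolution with a
nontrivial character there is invariant under translation by these multiples.
-/

set_option autoImplicit false

noncomputable section

namespace FermatAgent.Flat.Split

variable {N : ℕ} [NeZero N] {q : ℕ}

/-- The units congruent to one modulo `N / q`. -/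
abbrev localUnits (N q : ℕ) [NeZero N] (hq : q ∣ N) : Subgroup (ZMod N)ˣ :=
  (ZMod.unitsMap (Nat.div_dvd_of_dvd hq)).ker

variable (hq : q ∣ N)

/-- Membership in the local units. -/
lemma mem_localUnits {t : (ZMod N)ˣ} :
    t ∈ localUnits N q hq ↔
      ZMod.castHom (Nat.div_dvd_of_dvd hq) (ZMod (N / q)) (t : ZMod N) = 1 := by
  rw [MonoidHom.mem_ker, Units.ext_iff]
  rfl

lemma mul_step_eq_iff (hqp : q.Prime) (a b : ZMod N) :
    a * ((N / q : ℕ) : ZMod N) = b * ((N / q : ℕ) : ZMod N) ↔
      ZMod.castHom hq (ZMod q) a = ZMod.castHom hq (ZMod q) b := by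
  obtain ⟨a, rfl⟩ := ZMod.intCast_surjective a
  obtain ⟨b, rfl⟩ := ZMod.intCast_surjective b
  rw [map_intCast, map_intCast, ← Int.cast_natCast (N / q), ← Int.cast_mul, ← Int.cast_mul,
    ZMod.intCast_eq_intCast_iff_dvd_sub, ZMod.intCast_eq_intCast_iff_dvd_sub, ← sub_mul]
  have hR : ((N / q : ℕ) : ℤ) ≠ 0 := by
    exact_mod_cast (Nat.div_pos (Nat.le_of_dvd (NeZero.pos N) hq) hqp.pos).ne'
  conv_lhs => rw [show ((N : ℕ) : ℤ) = (q : ℤ) * ((N / q : ℕ) : ℤ) by
    rw [← Nat.cast_mul, Nat.mul_div_cancel' hq]]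
  exact mul_dvd_mul_iff_right hR

variable (hN : Squarefree N) (hqp : q.Prime)
include hN hqp

omit [NeZero N] hqp in
include hq in
/-- `q` is prime to `N / q`. -/
lemma coprime_step : Nat.Coprime q (N / q) :=
  Nat.coprime_of_squarefree_mul (by rwa [Nat.mul_div_cancel' hq])

/-- A unit modulo `q` has a lift congruent to one modulo `N / q`. -/
theorem exists_localUnit (a : ZMod q) (ha : a ≠ 0) :
    ∃ t ∈ localUnits N q hq, ZMod.castHom hq (ZMod q) (t : ZMod N) = a := by
  have : Fact q.Prime := ⟨hqp⟩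
  set e := ZMod.chineseRemainder (coprime_step hq hN)
  have hmul : q * (N / q) = N := Nat.mul_div_cancel' hq
  let r : ZMod N →+* ZMod q × ZMod (N / q) :=
    (ZMod.castHom hq (ZMod q)).prod (ZMod.castHom (Nat.div_dvd_of_dvd hq) (ZMod (N / q)))
  let f : ZMod (q * (N / q)) →+* ZMod N := ZMod.castHom hmul.symm.dvd _
  obtain ⟨x, hx⟩ := e.surjective (a, 1)
  have hr : r (f x) = (a, 1) := by
    rw [← hx]
    exact RingHom.congr_fun (Subsingleton.elim (r.comp f) e.toRingHom) x
  have hu : IsUnit (f x) := by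
    have hxu : IsUnit x := by
      have : IsUnit ((a, (1 : ZMod (N / q))) : ZMod q × ZMod (N / q)) :=
        Prod.isUnit_iff.mpr ⟨isUnit_iff_ne_zero.mpr ha, isUnit_one⟩
      rw [← hx] at this
      simpa using this.map e.symm
    exact hxu.map f
  exact ⟨hu.unit, (mem_localUnits hq).mpr (congrArg Prod.snd hr), congrArg Prod.fst hr⟩

omit hN [NeZero N] in
/-- Local units are nonzero modulo `q`. -/
lemma castHom_localUnit_ne_zero (t : (ZMod N)ˣ) : ZMod.castHom hq (ZMod q) (t : ZMod N) ≠ 0 := by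
  have : Fact q.Prime := ⟨hqp⟩
  exact (t.isUnit.map (ZMod.castHom hq (ZMod q))).ne_zero

omit hqp in
lemma localUnit_ext {s t : (ZMod N)ˣ} (hs : s ∈ localUnits N q hq) (ht : t ∈ localUnits N q hq)
    (h : ZMod.castHom hq (ZMod q) (s : ZMod N) = ZMod.castHom hq (ZMod q) (t : ZMod N)) :
    s = t := by
  refine Units.ext ?_
  obtain ⟨a, ha⟩ := ZMod.intCast_surjective (s : ZMod N)
  obtain ⟨b, hb⟩ := ZMod.intCast_surjective (t : ZMod N)
  have h2 := ((mem_localUnits hq).mp hs).trans ((mem_localUnits hq).mp ht).symm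
  rw [← ha, ← hb, map_intCast, map_intCast, ZMod.intCast_eq_intCast_iff_dvd_sub] at h h2
  rw [← ha, ← hb, ZMod.intCast_eq_intCast_iff_dvd_sub]
  have hco : IsCoprime (q : ℤ) ((N / q : ℕ) : ℤ) :=
    Nat.isCoprime_iff_coprime.mpr (coprime_step hq hN)
  have := hco.mul_dvd h h2
  rwa [← Nat.cast_mul, Nat.mul_div_cancel' hq] at this

/-- The component at `q` of a unit. -/
def localPart (s : (ZMod N)ˣ) : (ZMod N)ˣ :=
  (exists_localUnit hq hN hqp _ (castHom_localUnit_ne_zero hq hqp s)).choose

/-- The local part is a local unit. -/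
lemma localPart_mem (s : (ZMod N)ˣ) : localPart hq hN hqp s ∈ localUnits N q hq :=
  (exists_localUnit hq hN hqp _ (castHom_localUnit_ne_zero hq hqp s)).choose_spec.1

/-- The local part agrees with the unit modulo `q`. -/
lemma castHom_localPart (s : (ZMod N)ˣ) :
    ZMod.castHom hq (ZMod q) (localPart hq hN hqp s : ZMod N) =
      ZMod.castHom hq (ZMod q) (s : ZMod N) :=
  (exists_localUnit hq hN hqp _ (castHom_localUnit_ne_zero hq hqp s)).choose_spec.2

/-- The local part is multiplicative. -/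
lemma localPart_mul (s t : (ZMod N)ˣ) :
    localPart hq hN hqp (s * t) = localPart hq hN hqp s * localPart hq hN hqp t :=
  localUnit_ext hq hN (localPart_mem hq hN hqp _)
    (mul_mem (localPart_mem hq hN hqp s) (localPart_mem hq hN hqp t))
    (by simp only [castHom_localPart, Units.val_mul, map_mul])

variable {K : Type*} [Field K] (ψ : (ZMod N)ˣ →* Kˣ)

omit hN hqp

/-- Convolution along the multiples of `N / q`. -/
def convOp (g : ZMod N → K) (w : ZMod N) : K :=
  ∑ t : localUnits N q hq, (ψ t : K) * g (w + (t : (ZMod N)ˣ) * ((N / q : ℕ) : ZMod N))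

include hN hqp

/-- Dilation by a unit. -/
theorem convOp_dilate (g : ZMod N → K) (s : (ZMod N)ˣ) (w : ZMod N) :
    convOp hq ψ (fun v => g (s * v)) w =
      (ψ (localPart hq hN hqp s) : K)⁻¹ * convOp hq ψ g (s * w) := by
  set sq : localUnits N q hq := ⟨localPart hq hN hqp s, localPart_mem hq hN hqp s⟩
  rw [convOp, convOp, Finset.mul_sum]
  refine Fintype.sum_equiv (Equiv.mulLeft sq) _ _ fun t => ?_
  have e : ((sq : (ZMod N)ˣ) : ZMod N) * ((N / q : ℕ) : ZMod N) =
      (s : ZMod N) * ((N / q : ℕ) : ZMod N) :=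
    (mul_step_eq_iff hq hqp _ _).mpr (castHom_localPart hq hN hqp s)
  have e2 : (((sq * t : localUnits N q hq) : (ZMod N)ˣ) : ZMod N) * ((N / q : ℕ) : ZMod N) =
      (s : ZMod N) * ((t : (ZMod N)ˣ) * ((N / q : ℕ) : ZMod N)) := by
    rw [Subgroup.coe_mul, Units.val_mul, mul_right_comm, e]
    ring
  rw [Equiv.coe_mulLeft, e2, ← mul_add, Subgroup.coe_mul, map_mul, Units.val_mul, ← mul_assoc,
    inv_mul_cancel_left₀ (Units.ne_zero _)]

/-- **Vanishing of the convolution gives invariance under translation.** -/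
theorem translate_of_convOp_eq_zero [CharZero K] (hψ : ∃ t ∈ localUnits N q hq, ψ t ≠ 1)
    {h : ZMod N → K} (h0 : ∀ w, convOp hq ψ h w = 0) (w : ZMod N) (x : ZMod N) :
    h (w + x * ((N / q : ℕ) : ZMod N)) = h w := by
  classical
  have : Fact q.Prime := ⟨hqp⟩
  have : NeZero q := ⟨hqp.ne_zero⟩
  set R : ZMod N := ((N / q : ℕ) : ZMod N) with hR
  -- translations as a function on residues modulo `q`
  let F : ZMod N → ZMod q → K := fun v a => h (v + (a.val : ZMod N) * R)
  have hF : ∀ v (y : ZMod N), h (v + y * R) = F v (ZMod.castHom hq (ZMod q) y) := fun v y => by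
    refine congrArg (fun z => h (v + z)) ((mul_step_eq_iff hq hqp _ _).mpr ?_)
    rw [map_natCast, ZMod.natCast_zmod_val]
  -- local units are the nonzero residues
  have hbij : Function.Bijective fun t : localUnits N q hq =>
      (⟨ZMod.castHom hq (ZMod q) ((t : (ZMod N)ˣ) : ZMod N), castHom_localUnit_ne_zero hq hqp _⟩ :
        {a : ZMod q // a ≠ 0}) :=
    ⟨fun s t e => Subtype.ext (localUnit_ext hq hN s.2 t.2 (congrArg Subtype.val e)),
      fun a => by
        obtain ⟨t, ht, hta⟩ := exists_localUnit hq hN hqp a.1 a.2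
        exact ⟨⟨t, ht⟩, Subtype.ext hta⟩⟩
  set A : ZMod N → K := fun v => ∑ t : localUnits N q hq, h (v + ((t : (ZMod N)ˣ) : ZMod N) * R)
  have hA : ∀ v, A v + h v = ∑ a : ZMod q, F v a := fun v => by
    rw [Fintype.sum_eq_add_sum_subtype_ne _ (0 : ZMod q), add_comm]
    congr 1
    · simp [F]
    · rw [← hbij.sum_comp fun a : {a : ZMod q // a ≠ 0} => F v a.1]
      exact Finset.sum_congr rfl fun t _ => hF v _
  obtain ⟨t₁, ht₁, hψ₁⟩ := hψ
  have hsum : ∑ t : localUnits N q hq, (ψ t : K) = 0 := by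
    have e : (ψ t₁ : K) * ∑ t : localUnits N q hq, (ψ t : K) =
        ∑ t : localUnits N q hq, (ψ t : K) := by
      rw [Finset.mul_sum]
      exact Fintype.sum_equiv (Equiv.mulLeft ⟨t₁, ht₁⟩) _ _ fun t => by simp
    by_contra hne
    exact hψ₁ (Units.ext ((mul_eq_right₀ hne).mp e))
  -- convolve with the inverse character
  have hkey : ∀ v, ((q : K) - 1) * h v = A v := by
    intro v
    set L := localUnits N q hq
    have h2 : ∑ s : L, (ψ s : K)⁻¹ * convOp hq ψ h (v + ((s : (ZMod N)ˣ) : ZMod N) * R) = 0 :=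
      Finset.sum_eq_zero fun s _ => by rw [h0, mul_zero]
    obtain ⟨r₀, hr₀, hr₀'⟩ := exists_localUnit hq hN hqp (-1 : ZMod q) (by simp)
    have h3 : ∑ r : L, (ψ r : K) *
        ∑ s : L, h (v + ((s : (ZMod N)ˣ) : ZMod N) * (1 + ((r : (ZMod N)ˣ) : ZMod N)) * R) = 0 := by
      rw [← h2]
      simp only [convOp, Finset.mul_sum]
      rw [Finset.sum_comm]
      refine Finset.sum_congr rfl fun s _ => ?_
      refine Fintype.sum_equiv (Equiv.mulLeft s) _ _ fun r => ?_
      rw [Equiv.coe_mulLeft, Subgroup.coe_mul, map_mul, Units.val_mul, Units.val_mul, ← mul_assoc,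
        inv_mul_cancel_left₀ (Units.ne_zero _)]
      congr 1
      rw [hR]
      ring_nf
    have hterm : ∀ r : L, (∑ s : L,
        h (v + ((s : (ZMod N)ˣ) : ZMod N) * (1 + ((r : (ZMod N)ˣ) : ZMod N)) * R)) =
        if r = (⟨r₀, hr₀⟩ : L) then (Fintype.card L : K) * h v else A v := by
      intro r
      split_ifs with hr
      · subst hr
        rw [Finset.sum_eq_card_nsmul fun s _ => ?_, nsmul_eq_mul]
        · rfl
        · rw [hF v, map_mul, map_add, map_one, hr₀']
          simp [F]
      · have hne : ZMod.castHom hq (ZMod q) (1 + ((r : (ZMod N)ˣ) : ZMod N)) ≠ 0 := by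
          rw [map_add, map_one, ne_eq, add_comm, add_eq_zero_iff_eq_neg, ← hr₀']
          exact fun e => hr (Subtype.ext (localUnit_ext hq hN r.2 hr₀ e))
        obtain ⟨y, hy, hy'⟩ := exists_localUnit hq hN hqp _ hne
        refine Fintype.sum_equiv (Equiv.mulRight (⟨y, hy⟩ : L)) _ _ fun s => ?_
        rw [hF v, hF v, map_mul, ← hy', ← map_mul]
        rfl
    simp only [hterm, mul_ite] at h3
    rw [Finset.sum_ite, Finset.filter_eq', if_pos (Finset.mem_univ _), Finset.sum_singleton,
      ← Finset.sum_mul, Finset.filter_ne', Finset.sum_erase_eq_sub (Finset.mem_univ _), hsum,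
      zero_sub, neg_mul, ← sub_eq_add_neg, ← mul_sub] at h3
    have hcard : (Fintype.card L : K) = (q : K) - 1 := by
      have e1 : Fintype.card L = q - 1 := by
        rw [Fintype.card_of_bijective hbij, Fintype.card_subtype_compl, Fintype.card_subtype_eq,
          ZMod.card]
      rw [e1, Nat.cast_sub hqp.one_le, Nat.cast_one]
    rw [hcard] at h3
    exact sub_eq_zero.mp ((mul_eq_zero.mp h3).resolve_left (Units.ne_zero _))
  have hq0 : (q : K) ≠ 0 := Nat.cast_ne_zero.mpr hqp.ne_zero
  have hav : ∀ v, (q : K) * h v = ∑ a : ZMod q, F v a := fun v => by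
    rw [← hA v, ← hkey v]; ring
  refine mul_left_cancel₀ hq0 ?_
  rw [hav, hav]
  refine Fintype.sum_equiv (Equiv.addLeft (ZMod.castHom hq (ZMod q) x)) _ _ fun a => ?_
  show _ = F w (ZMod.castHom hq (ZMod q) x + a)
  rw [show ZMod.castHom hq (ZMod q) x + a =
    ZMod.castHom hq (ZMod q) (x + (a.val : ZMod N)) by
      rw [map_add, map_natCast, ZMod.natCast_zmod_val],
    ← hF]
  show h (w + x * R + (a.val : ZMod N) * R) = _
  congr 1
  ring

end FermatAgent.Flat.Split
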