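import Fermat.Agent.Flat.Split.Shift

/-!
# Corestriction from the split group to `Γ₀(M N²)`

The product over coset representatives sends parabolic characters of the split group to those of
`Γ₀(M N²)` and commutes with Galois.
-/

set_option autoImplicit false

open UpperHalfPlane CongruenceSubgroup
open scoped MatrixGroups ModularForm Manifold
open FermatAgent.ES (IsTwist IsParChar parGroup HasExp conjChar GQ galChar autC)
open FermatAgent.HM

noncomputable section

namespace FermatAgent.Flat.Split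

variable (N M : ℕ)

/-- The class of an element of `Γ₀(M N²)`. -/
abbrev cls : Gamma0 (M * N ^ 2) →* (ZMod N)ˣ := gammaClass (sqUnits N) (dvd_split N M)

/-- The index set of the cosets. -/
abbrev Cosets : Type := (cls N M).range

variable {N M}

instance : Fintype (Cosets N M) := Fintype.ofFinite _

/-- A representative of a coset. -/
def cosetRep (x : Cosets N M) : Gamma0 (M * N ^ 2) := (MonoidHom.mem_range.mp x.2).choose

/-- The representative lies in its coset. -/
lemma cls_cosetRep (x : Cosets N M) : cls N M (cosetRep x) = x :=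
  (MonoidHom.mem_range.mp x.2).choose_spec

/-- The coset moved by an element. -/
def cosetMove (γ : Gamma0 (M * N ^ 2)) (x : Cosets N M) : Cosets N M :=
  ⟨x * cls N M γ, mul_mem x.2 ⟨γ, rfl⟩⟩

/-- The factor of an element at a coset. -/
def cosetFac (γ : Gamma0 (M * N ^ 2)) (x : Cosets N M) : splitGroup N M :=
  toGammaH (sqUnits N) (dvd_split N M) (cosetRep x * γ * (cosetRep (cosetMove γ x))⁻¹) (by
    rw [map_mul, map_mul, map_inv, cls_cosetRep, cls_cosetRep, mul_inv_eq_one]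
    rfl)

/-- The factor of an element at a coset, in `SL₂(ℤ)`. -/
lemma coe_cosetFac (γ : Gamma0 (M * N ^ 2)) (x : Cosets N M) :
    (cosetFac γ x : SL(2, ℤ)) = (cosetRep x : SL(2, ℤ)) * (γ : SL(2, ℤ)) *
      ((cosetRep (cosetMove γ x) : Gamma0 (M * N ^ 2)) : SL(2, ℤ))⁻¹ := rfl

lemma cosetMove_one (x : Cosets N M) : cosetMove 1 x = x :=
  Subtype.ext (by simp [cosetMove])

lemma cosetMove_mul (γ γ' : Gamma0 (M * N ^ 2)) (x : Cosets N M) :
    cosetMove (γ * γ') x = cosetMove γ' (cosetMove γ x) :=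
  Subtype.ext (by simp [cosetMove, mul_assoc])

/-- An element permutes the cosets. -/
lemma bijective_cosetMove (γ : Gamma0 (M * N ^ 2)) : Function.Bijective (cosetMove (N := N) γ) :=
  Function.bijective_iff_has_inverse.mpr ⟨cosetMove γ⁻¹,
    fun x => by rw [← cosetMove_mul, mul_inv_cancel, cosetMove_one],
    fun x => by rw [← cosetMove_mul, inv_mul_cancel, cosetMove_one]⟩

/-- Corestriction of a homomorphism. -/
def corHom {A : Type*} [CommMonoid A] (φ : splitGroup N M →* A) : Gamma0 (M * N ^ 2) →* A where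
  toFun γ := ∏ x, φ (cosetFac γ x)
  map_one' := Finset.prod_eq_one fun x _ => by
    rw [show cosetFac 1 x = 1 from Subtype.ext (by
      rw [coe_cosetFac, cosetMove_one]; simp), map_one]
  map_mul' γ γ' := by
    have e : ∀ x, cosetFac (γ * γ') x = cosetFac γ x * cosetFac γ' (cosetMove γ x) := fun x =>
      Subtype.ext (by
        rw [Subgroup.coe_mul, coe_cosetFac, coe_cosetFac, coe_cosetFac, cosetMove_mul]
        simp [mul_assoc])
    simp only [e, map_mul, Finset.prod_mul_distrib]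
    congr 1
    exact (bijective_cosetMove γ).prod_comp fun x => φ (cosetFac γ' x)

lemma corHom_apply {A : Type*} [CommMonoid A] (φ : splitGroup N M →* A) (γ : Gamma0 (M * N ^ 2)) :
    corHom φ γ = ∏ x, φ (cosetFac γ x) := rfl

/-- Elements of trace `± 2` act trivially on the cosets. -/
lemma cls_eq_one_of_trace (hN : Squarefree N) {γ : Gamma0 (M * N ^ 2)}
    (h : ((γ : SL(2, ℤ)) : Matrix (Fin 2) (Fin 2) ℤ).trace ^ 2 = 4) : cls N M γ = 1 := by
  obtain ⟨z, hz⟩ := (ZMod.intCast_zmod_eq_zero_iff_dvd _ _).mp (Gamma0_mem.mp γ.2)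
  rw [gammaClass_comp]
  refine Units.ext ?_
  rw [powMonoidHom_apply, Units.val_pow_eq_pow_val, coe_gammaClass, Units.val_one]
  set a := (γ : SL(2, ℤ)) 0 0
  set d := (γ : SL(2, ℤ)) 1 1
  have hdet : a * d - (γ : SL(2, ℤ)) 0 1 * (γ : SL(2, ℤ)) 1 0 = 1 := by
    rw [← Matrix.det_fin_two]; exact (γ : SL(2, ℤ)).det_coe
  rw [Matrix.trace_fin_two] at h
  have hsq : (N : ℤ) ∣ (d ^ 2 - 1) * (d ^ 2 - 1) := by
    refine ⟨-4 * d ^ 2 * ((γ : SL(2, ℤ)) 0 1) * (M * N * z) - 2 * (γ : SL(2, ℤ)) 0 1 * (M * N * z) *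
      (d ^ 2 - 1) + ((4 * d ^ 2 * (γ : SL(2, ℤ)) 0 1 + 2 * (γ : SL(2, ℤ)) 0 1 * (d ^ 2 - 1)) -
      (γ : SL(2, ℤ)) 0 1 ^ 2 * ((γ : SL(2, ℤ)) 1 0) - 2 * (γ : SL(2, ℤ)) 0 1 * (1 + d ^ 2)) *
      (M * N * z), ?_⟩
    push_cast at hz
    have hc : (γ : SL(2, ℤ)) 1 0 = (N : ℤ) * (M * N * z) := by rw [hz]; ring
    linear_combination d ^ 2 * h - (a * d + 1 + 2 * d ^ 2 + (γ : SL(2, ℤ)) 0 1 *
        (γ : SL(2, ℤ)) 1 0) * hdet -
      (2 * (γ : SL(2, ℤ)) 0 1 * (1 + d ^ 2) + (γ : SL(2, ℤ)) 0 1 ^ 2 * (γ : SL(2, ℤ)) 1 0) * hc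
  have hdvd : (N : ℤ) ∣ d ^ 2 - 1 := by
    have hsf : Squarefree (N : ℤ) := Int.squarefree_natCast.mpr hN
    exact (hsf.isRadical 2 _ (by rwa [pow_two]))
  rw [← sub_eq_zero]
  have := (ZMod.intCast_zmod_eq_zero_iff_dvd _ _).mpr hdvd
  push_cast at this
  exact this

lemma corHom_mem_parGroup (hN : Squarefree N) {n : ℕ} (φ : parGroup (splitGroup N M) n) :
    corHom (φ : splitGroup N M →* ℂˣ) ∈ parGroup (Gamma0 (M * N ^ 2)) n := by
  refine ⟨MonoidHom.ext fun γ => ?_, fun γ hγ => ?_⟩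
  · rw [MonoidHom.pow_apply, corHom_apply, ← Finset.prod_pow, MonoidHom.one_apply]
    exact Finset.prod_eq_one fun x _ => DFunLike.congr_fun φ.2.1 _
  · rw [corHom_apply]
    refine Finset.prod_eq_one fun x _ => φ.2.2 _ ?_
    have hm : cosetMove γ x = x := Subtype.ext (by
      simp [cosetMove, cls_eq_one_of_trace hN hγ])
    show ((cosetFac γ x : SL(2, ℤ)) : Matrix (Fin 2) (Fin 2) ℤ).trace ^ 2 = 4
    rw [coe_cosetFac, hm, Matrix.SpecialLinearGroup.coe_mul, Matrix.trace_mul_comm,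
      ← Matrix.SpecialLinearGroup.coe_mul, inv_mul_cancel_left]
    exact hγ

variable [NeZero N] (hN : Squarefree N) {n : ℕ}

/-- Corestriction of parabolic characters. -/
def corChar (φ : parGroup (splitGroup N M) n) : parGroup (Gamma0 (M * N ^ 2)) n :=
  ⟨_, corHom_mem_parGroup hN φ⟩

omit [NeZero N] in
theorem isTwist_cor {k : ℤ} {φ : splitGroup N M →* ℂˣ} {v : ℍ → ℂ}
    (hv : IsTwist (splitGroup N M) k φ v) :
    IsTwist (Gamma0 (M * N ^ 2)) (k * Fintype.card (Cosets N M)) (corHom φ)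
      (∏ x : Cosets N M, v ∣[k] ((cosetRep x : Gamma0 (M * N ^ 2)) : SL(2, ℤ))) where
  mdiff := MDifferentiable.prod fun x _ => hv.mdiff.slash k _
  slash γ := by
    rw [ES.prod_slash_int]
    have e : ∀ x : Cosets N M,
        (v ∣[k] ((cosetRep x : Gamma0 (M * N ^ 2)) : SL(2, ℤ))) ∣[k] (γ : SL(2, ℤ)) =
        ((φ (cosetFac γ x) : ℂˣ) : ℂ) •
          (v ∣[k] ((cosetRep (cosetMove γ x) : Gamma0 (M * N ^ 2)) : SL(2, ℤ))) := fun x => by
      rw [← SlashAction.slash_mul, show ((cosetRep x : Gamma0 (M * N ^ 2)) : SL(2, ℤ)) *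
        (γ : SL(2, ℤ)) =
        (cosetFac γ x : SL(2, ℤ)) * ((cosetRep (cosetMove γ x) : Gamma0 (M * N ^ 2)) : SL(2, ℤ)) by
          rw [coe_cosetFac]; simp,
        SlashAction.slash_mul, hv.slash (cosetFac γ x),
        show (fun τ => ((φ (cosetFac γ x) : ℂˣ) : ℂ) * v τ) =
          ((φ (cosetFac γ x) : ℂˣ) : ℂ) • v from rfl, ModularForm.SL_smul_slash]
    simp only [e]
    funext τ
    simp only [Finset.prod_apply, Pi.smul_apply, smul_eq_mul, Finset.prod_mul_distrib, corHom_apply,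
      Units.coe_prod]
    congr 1
    exact (bijective_cosetMove γ).prod_comp fun x =>
      (v ∣[k] ((cosetRep x : Gamma0 (M * N ^ 2)) : SL(2, ℤ))) τ
  bdd γ := by
    rw [ES.prod_slash_int]
    refine ES.isBounded_prod _ (fun x => ?_) _
    rw [← SlashAction.slash_mul]
    exact hv.bdd _

variable [NeZero M] [NeZero n]

/-- **Galois commutes with the corestriction.** -/
theorem galChar_corChar (g : GQ) (φ : parGroup (splitGroup N M) n) :
    galChar (ES.goodLevel_Gamma0 (M * N ^ 2)) n g (corChar hN φ) =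
      corChar hN (galChar goodLevel_split n g φ) := by
  set hG : ES.GoodLevel (M * N ^ 2) (splitGroup N M) := goodLevel_split
  obtain ⟨i, v, v', c, hv, hv0, hv', -, hc, hc'⟩ := ES.conjChar_spec hG (autC g) φ
  set φ' := conjChar hG (autC g) φ
  have hd := fun x : Cosets N M => ES.hasExp_twist hG (conjParChar (cosetRep x)⁻¹ φ).2.2
    (isTwist_slash_conj (cosetRep x)⁻¹ hv)
  have hC := fun x : Cosets N M => exists_smul_slash_conj (ES.auxLevel12 (M * N ^ 2))
    (dvd_mul_left (M * N ^ 2) 12) (sqUnits_neg_one N) hv hv0 hv' hc hc' (cosetRep x)⁻¹ (hd x)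
  simp only [inv_inv, InvMemClass.coe_inv] at hd hC
  choose C hCn hC using hC
  set D := fun x : Cosets N M => qExpansion ((12 * (M * N ^ 2) : ℕ) : ℝ)
    (v ∣[((2 * i : ℕ) : ℤ)] ((cosetRep x : Gamma0 (M * N ^ 2)) : SL(2, ℤ)))
  have hw : ((2 * i : ℕ) : ℤ) * Fintype.card (Cosets N M) =
      ((2 * (i * Fintype.card (Cosets N M)) : ℕ) : ℤ) := by push_cast; ring
  have h1 := isTwist_cor hv
  have h2 := (isTwist_cor hv').smul (∏ x, C x)
  rw [hw] at h1 h2
  have hd0 : ∀ x : Cosets N M, D x ≠ 0 := fun x h0 =>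
    ES.slash_ne_zero _ hv0 ((show HasExp (12 * (M * N ^ 2))
      (v ∣[((2 * i : ℕ) : ℤ)] ((cosetRep x : Gamma0 (M * N ^ 2)) : SL(2, ℤ))) (D x)
        from hd x).eq_of_series
        (h0.symm ▸ HasExp.zero))
  have hP := HasExp.prod Finset.univ fun x _ => hd x
  have hP' := HasExp.prod Finset.univ fun x _ => hC x
  rw [← map_prod] at hP'
  refine ES.conjChar_eq (ES.goodLevel_Gamma0 (M * N ^ 2)) (ES.IsConjTwist.mk_of h1 (fun h0 => ?_)
    h2 hP (hP'.congr_fun fun τ => ?_))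
  · exact Finset.prod_ne_zero_iff.mpr (fun x _ => hd0 x) (hP.series_unique (h0 ▸ HasExp.zero))
  · simp [Finset.prod_apply, Finset.prod_mul_distrib]

end FermatAgent.Flat.Split
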