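import Fermat.Agent.Flat.Split.Conv

/-!
# Iterated convolutions over a list of primes
-/

set_option autoImplicit false

noncomputable section

namespace FermatAgent.Flat.Split

variable {N : ℕ} [NeZero N] {K : Type*} [Field K]

/-- A prime divisor. -/
abbrev PrimeDiv (N : ℕ) : Type := {q : ℕ // q.Prime ∧ q ∣ N}

variable (ψ : (ZMod N)ˣ →* Kˣ)

/-- Iterated convolution. -/
def convList : List (PrimeDiv N) → (ZMod N → K) → ZMod N → K
  | [], g, w => g w
  | q :: l, g, w => convOp q.2.2 ψ (fun v => convList l g v) w

lemma convList_cons (q : PrimeDiv N) (l : List (PrimeDiv N)) (g : ZMod N → K) :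
    convList ψ (q :: l) g = convOp q.2.2 ψ (convList ψ l g) := rfl

/-- Iterated convolution commutes with translation. -/
lemma convList_translate (l : List (PrimeDiv N)) (g : ZMod N → K) (m w : ZMod N) :
    convList ψ l (fun v => g (v + m)) w = convList ψ l g (w + m) := by
  induction l generalizing w with
  | nil => rfl
  | cons q l ih =>
    simp only [convList_cons, convOp]
    exact Finset.sum_congr rfl fun t _ => by rw [ih, add_right_comm]

/-- Iterated convolution commutes with linear combinations. -/
lemma convList_sum {ι : Type*} (s : Finset ι) (c : ι → K) (g : ι → ZMod N → K)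
    (l : List (PrimeDiv N)) (w : ZMod N) :
    convList ψ l (fun v => ∑ i ∈ s, c i * g i v) w = ∑ i ∈ s, c i * convList ψ l (g i) w := by
  induction l generalizing w with
  | nil => rfl
  | cons q l ih =>
    simp only [convList_cons, convOp, ih, Finset.mul_sum]
    rw [Finset.sum_comm]
    exact Finset.sum_congr rfl fun i _ => Finset.sum_congr rfl fun t _ => by ring

/-- Iterated convolution of zero. -/
lemma convList_zero (l : List (PrimeDiv N)) (w : ZMod N) :
    convList ψ l (fun _ => (0 : K)) w = 0 := by
  induction l generalizing w with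
  | nil => rfl
  | cons q l ih =>
    simp only [convList_cons, convOp]
    exact Finset.sum_eq_zero fun t _ => by rw [ih, mul_zero]

/-- Iterated convolution is additive. -/
lemma convList_add (l : List (PrimeDiv N)) (g g' : ZMod N → K) (w : ZMod N) :
    convList ψ l (fun v => g v + g' v) w = convList ψ l g w + convList ψ l g' w := by
  induction l generalizing w with
  | nil => rfl
  | cons q l ih => simp only [convList_cons, convOp, ih, mul_add, Finset.sum_add_distrib]

variable (hN : Squarefree N)
include hN

/-- Dilating by a unit multiplies the convolution by the local characters. -/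
lemma convList_dilate (l : List (PrimeDiv N)) (g : ZMod N → K) (s : (ZMod N)ˣ) (w : ZMod N) :
    convList ψ l (fun v => g (s * v)) w =
      ((l.map fun q => (ψ (localPart q.2.2 hN q.2.1 s) : K)⁻¹).prod) * convList ψ l g (s * w) := by
  induction l generalizing w with
  | nil => simp [convList]
  | cons q l ih =>
    rw [convList_cons, convList_cons, List.map_cons, List.prod_cons, mul_right_comm,
      ← convOp_dilate q.2.2 hN q.2.1 ψ _ s w, convOp, convOp, Finset.sum_mul]
    exact Finset.sum_congr rfl fun t _ => by rw [ih]; ring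

omit hN in
/-- The iterated convolution at a multiple of `q₀` only sees multiples of `q₀`. -/
lemma convList_congr {q₀ : PrimeDiv N} (l : List (PrimeDiv N)) (hl : q₀ ∉ l) (c : K)
    (g g' : ZMod N → K)
    (h : ∀ w : ZMod N, ZMod.castHom q₀.2.2 (ZMod q₀.1) w = 0 → g' w = c * g w) (w : ZMod N)
    (hw : ZMod.castHom q₀.2.2 (ZMod q₀.1) w = 0) : convList ψ l g' w = c * convList ψ l g w := by
  induction l generalizing w with
  | nil => exact h w hw
  | cons q l ih =>
    rw [List.mem_cons, not_or] at hl
    simp only [convList_cons, convOp, Finset.mul_sum]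
    refine Finset.sum_congr rfl fun t _ => ?_
    have h0 : ((N / q.1 : ℕ) : ZMod q₀.1) = 0 := by
      rw [ZMod.natCast_eq_zero_iff]
      refine Nat.dvd_div_of_mul_dvd (Nat.Coprime.mul_dvd_of_dvd_of_dvd ?_ q.2.2 q₀.2.2)
      exact (Nat.coprime_primes q.2.1 q₀.2.1).mpr fun e => hl.1 (Subtype.ext e.symm)
    rw [ih hl.2 _ (by rw [map_add, map_mul, hw, map_natCast, h0, mul_zero, add_zero])]
    ring

/-- A unit is the product of its local parts. -/
lemma prod_localPart (s : Finset (PrimeDiv N)) (hs : ∀ q, q ∈ s) (u : (ZMod N)ˣ) :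
    ∏ q ∈ s, localPart q.2.2 hN q.2.1 u = u := by
  classical
  refine Units.ext ?_
  set X : ZMod N := ((∏ q ∈ s, localPart q.2.2 hN q.2.1 u : (ZMod N)ˣ) : ZMod N) with hX
  have hp : ∀ q₀ : PrimeDiv N, ZMod.castHom q₀.2.2 (ZMod q₀.1) X =
      ZMod.castHom q₀.2.2 (ZMod q₀.1) (u : ZMod N) := fun q₀ => by
    rw [hX, Units.coe_prod, map_prod, Finset.prod_eq_single q₀, castHom_localPart]
    · intro q _ hne
      have h1 := (mem_localUnits q.2.2).mp (localPart_mem q.2.2 hN q.2.1 u)
      have hdvd : q₀.1 ∣ N / q.1 := Nat.dvd_div_of_mul_dvd (Nat.Coprime.mul_dvd_of_dvd_of_dvd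
        ((Nat.coprime_primes q.2.1 q₀.2.1).mpr fun e => hne (Subtype.ext e)) q.2.2 q₀.2.2)
      have h2 := congrArg (ZMod.castHom hdvd (ZMod q₀.1)) h1
      rw [map_one] at h2
      rwa [← RingHom.comp_apply, Subsingleton.elim ((ZMod.castHom hdvd (ZMod q₀.1)).comp _)
        (ZMod.castHom q₀.2.2 (ZMod q₀.1))] at h2
    · exact fun h => absurd (hs q₀) h
  obtain ⟨x, hx⟩ := ZMod.intCast_surjective X
  obtain ⟨y, hy⟩ := ZMod.intCast_surjective (u : ZMod N)
  rw [← hx, ← hy, ZMod.intCast_eq_intCast_iff_dvd_sub, ← Int.natAbs_dvd_natAbs, Int.natAbs_natCast,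
    ← Nat.prod_primeFactors_of_squarefree hN]
  refine Finset.prod_primes_dvd _ (fun q hq => (Nat.prime_of_mem_primeFactors hq).prime)
    fun q hq => ?_
  have h3 := hp ⟨q, Nat.prime_of_mem_primeFactors hq, Nat.dvd_of_mem_primeFactors hq⟩
  rw [← hx, ← hy, map_intCast, map_intCast, ZMod.intCast_eq_intCast_iff_dvd_sub] at h3
  exact Int.natCast_dvd.mp h3

end FermatAgent.Flat.Split
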