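import Fermat.Agent.Flat.Split.Cor
import Fermat.Agent.Flat.Split.Lists
import Mathlib.GroupTheory.Index

/-!
# Functions on deep congruence subgroups and conjugation by integral matrices
-/

set_option autoImplicit false

open CongruenceSubgroup
open scoped MatrixGroups
open FermatAgent.HM

noncomputable section

namespace FermatAgent.Flat.Split

variable {N M : ℕ} [NeZero N] [NeZero M] {K : Type*}

local notation "Mat2Z" => Matrix (Fin 2) (Fin 2) ℤ

/-- An integral matrix conjugates a deep congruence subgroup into a congruence subgroup. -/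
theorem exists_conj_mem_Gamma (A : Mat2Z) (n : ℕ) {γ : SL(2, ℤ)}
    (hγ : γ ∈ Gamma (n * A.det.natAbs)) (hA : A.det ≠ 0) :
    ∃ γ' : SL(2, ℤ), γ' ∈ Gamma n ∧ A * (γ : Mat2Z) = (γ' : Mat2Z) * A := by
  obtain ⟨h00, h01, h10, h11⟩ := Gamma_mem.mp hγ
  have hdiv : ∀ i j, ((n * A.det.natAbs : ℕ) : ℤ) ∣ ((γ : Mat2Z) - 1) i j := by
    intro i j
    rw [← ZMod.intCast_zmod_eq_zero_iff_dvd, Matrix.sub_apply]
    fin_cases i <;> fin_cases j <;> simp [h00, h01, h10, h11]
  have hdiv' : ∀ i j, (n : ℤ) * A.det ∣ ((γ : Mat2Z) - 1) i j := fun i j => by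
    refine dvd_trans ?_ (hdiv i j)
    rw [Nat.cast_mul, Int.natCast_natAbs]
    exact mul_dvd_mul_left _ (self_dvd_abs _)
  choose X hX using hdiv'
  have hγX : (γ : Mat2Z) = 1 + ((n : ℤ) * A.det) • Matrix.of X := by
    ext i j
    have := hX i j
    rw [Matrix.sub_apply] at this
    simp only [Matrix.add_apply, Matrix.smul_apply, Matrix.of_apply, smul_eq_mul]
    linear_combination this
  set Y : Mat2Z := 1 + (n : ℤ) • (A * Matrix.of X * A.adjugate)
  have hY : A * (γ : Mat2Z) = Y * A := by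
    simp only [hγX, Y, mul_add, add_mul, mul_one, one_mul, mul_smul_comm, smul_mul_assoc, mul_assoc,
      Matrix.adjugate_mul, mul_smul, smul_comm ((n : ℤ))]
  have hdet : Y.det = 1 := by
    have h := congrArg Matrix.det hY
    rw [Matrix.det_mul, Matrix.det_mul, γ.det_coe, mul_one] at h
    exact (mul_eq_right₀ hA).mp h.symm
  refine ⟨⟨Y, hdet⟩, Gamma_mem.mpr ?_, hY⟩
  refine ⟨?_, ?_, ?_, ?_⟩ <;>
    · simp only [Y, Matrix.add_apply, Matrix.smul_apply, Matrix.one_apply, smul_eq_mul]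
      push_cast
      simp

omit [NeZero N] [NeZero M] in
/-- `Γ(M N²)` lies in the split group. -/
theorem Gamma_le_splitGroup : Gamma (M * N ^ 2) ≤ splitGroup N M :=
  fun _ hg => (mem_gammaH_iff _ _).mpr (gammaClass_eq_one_of_mem_gamma hg)

variable [Field K]

omit [NeZero N] [NeZero M] in
/-- An additive function on the split group vanishing deep down vanishes. -/
theorem eq_zero_of_deep [CharZero K] (f : splitGroup N M → K) (hf : ∀ a b, f (a * b) = f a + f b)
    {n : ℕ} [NeZero n] (h : ∀ a : splitGroup N M, (a : SL(2, ℤ)) ∈ Gamma n → f a = 0)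
    (a : splitGroup N M) : f a = 0 := by
  have hidx : ((Gamma n).subgroupOf (splitGroup N M)).index ≠ 0 :=
    Subgroup.FiniteIndex.index_ne_zero
  obtain ⟨j, hj, -, hmem⟩ := Subgroup.exists_pow_mem_of_index_ne_zero hidx a
  have hpow : ∀ i : ℕ, f (a ^ i) = (i : K) * f a := fun i => by
    induction i with
    | zero =>
      rw [pow_zero, Nat.cast_zero, zero_mul]
      exact left_eq_add.mp ((congrArg f (mul_one (1 : splitGroup N M))).symm.trans (hf 1 1))
    | succ i ih => rw [pow_succ, hf, ih]; push_cast; ring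
  have h1 := h _ (Subgroup.mem_subgroupOf.mp hmem)
  rw [hpow] at h1
  exact (mul_eq_zero.mp h1).resolve_left (Nat.cast_ne_zero.mpr hj.ne')

variable (H : splitGroup N M → K)

/-- A function is unchanged by conjugation by an integral matrix, deep down. -/
def Invar (A : Mat2Z) : Prop :=
  A.det ≠ 0 ∧ ∃ n : ℕ, n ≠ 0 ∧ ∀ γ γ' : splitGroup N M, ((γ : SL(2, ℤ))) ∈ Gamma n →
    A * ((γ : SL(2, ℤ)) : Mat2Z) = ((γ' : SL(2, ℤ)) : Mat2Z) * A → H γ' = H γ

variable {H}

omit [Field K] in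
/-- Invariance is closed under products. -/
theorem Invar.mul {A B : Mat2Z} (hA : Invar H A) (hB : Invar H B) : Invar H (A * B) := by
  obtain ⟨hA0, nA, hnA, hA⟩ := hA
  obtain ⟨hB0, nB, hnB, hB⟩ := hB
  refine ⟨by rw [Matrix.det_mul]; exact mul_ne_zero hA0 hB0,
    nA * (M * N ^ 2) * B.det.natAbs * nB,
    mul_ne_zero (mul_ne_zero (mul_ne_zero hnA (NeZero.ne _)) (Int.natAbs_ne_zero.mpr hB0)) hnB,
    fun γ γ' hγ e => ?_⟩
  obtain ⟨γ₁, h₁, e₁⟩ := exists_conj_mem_Gamma B (nA * (M * N ^ 2))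
    (ES.gamma_le_of_dvd (dvd_mul_right _ nB) hγ) hB0
  let g₁ : splitGroup N M := ⟨γ₁, Gamma_le_splitGroup (ES.gamma_le_of_dvd (dvd_mul_left _ nA) h₁)⟩
  have e₂ : A * ((g₁ : SL(2, ℤ)) : Mat2Z) = ((γ' : SL(2, ℤ)) : Mat2Z) * A := by
    have h3 : A * (γ₁ : Mat2Z) * B = ((γ' : SL(2, ℤ)) : Mat2Z) * A * B := by
      rw [mul_assoc, ← e₁, ← mul_assoc, e, mul_assoc]
    have := congrArg (fun X => X * B.adjugate) h3
    simp only [Matrix.mul_assoc, Matrix.mul_adjugate, Matrix.mul_smul, mul_one] at this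
    exact smul_right_injective _ hB0 this
  rw [hA g₁ γ' (ES.gamma_le_of_dvd (dvd_mul_right nA _) h₁) e₂,
    hB γ g₁ (ES.gamma_le_of_dvd (dvd_mul_left _ _) hγ) e₁]

omit [NeZero N] [NeZero M] [Field K] in
/-- Invariance under a multiple implies invariance. -/
theorem Invar.of_smul {c : ℤ} {A : Mat2Z} (hA : Invar H (c • A)) : Invar H A := by
  obtain ⟨h0, n, hn, h⟩ := hA
  have hc : c ≠ 0 := fun hc => h0 (by simp [hc])
  exact ⟨fun hd => h0 (by rw [Matrix.det_smul, hd, mul_zero]), n, hn,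
    fun γ γ' hγ e => h γ γ' hγ (by rw [smul_mul_assoc, mul_smul_comm, e])⟩

end FermatAgent.Flat.Split
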