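import Fermat.Agent.Flat.Split.Translate
import Mathlib.FieldTheory.IsAlgClosed.Basic
import Mathlib.GroupTheory.FiniteAbelian.Duality

/-!
# The split level detects homomorphisms of `Γ_H`

For squarefree `N`, `Δ` of odd order and `q² ∤ M` for the primes `q ∣ N`, a homomorphism of
`Γ_H` into a field of characteristic zero is determined by the corestrictions to `Γ₀(M N²)` of
its translates.
-/

set_option autoImplicit false

open CongruenceSubgroup
open scoped MatrixGroups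
open FermatAgent.HM

noncomputable section

namespace FermatAgent.Flat.Split

variable {Δ : Type*} [CommGroup Δ] {N M : ℕ} [NeZero N]
variable {δ : (ZMod N)ˣ →* Δ} (hNM : N ∣ M)

omit [NeZero N] in
/-- A character of odd order kills units squaring to one. -/
lemma sq_eq_one_of_odd (hodd : Odd (Nat.card Δ)) (x : (ZMod N)ˣ) (hx : x ^ 2 = 1) : δ x = 1 := by
  obtain ⟨k, hk⟩ := hodd
  have h1 : δ x ^ (2 * k + 1) = 1 := by rw [← hk]; exact pow_card_eq_one'
  rwa [pow_succ, pow_mul, ← map_pow, hx, map_one, one_pow, one_mul] at h1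

variable (hsq : ∀ x : (ZMod N)ˣ, x ^ 2 = 1 → δ x = 1) {K : Type*} [Field K]

local notation "Mat2Z" => Matrix (Fin 2) (Fin 2) ℤ

/-- All corestrictions of translates vanish. -/
def CorVanishes (Φ : Additive (gammaH δ hNM) →+ K) : Prop :=
  ∀ (u : ℤ) (γ : splitGroup N M),
    ∑ x : Cosets N M, Φ (Additive.ofMul (shiftHom hNM hsq u
      (cosetFac (gammaHIncl (sqUnits N) (dvd_split N M) γ) x))) = 0

omit [NeZero N] in
lemma cosetFac_eq_conj (γ : splitGroup N M) (x : Cosets N M) :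
    cosetFac (gammaHIncl (sqUnits N) (dvd_split N M) γ) x =
      conjGammaH (δ := sqUnits N) (hNM := dvd_split N M) (cosetRep x)⁻¹ γ := by
  have hm : cosetMove (gammaHIncl (sqUnits N) (dvd_split N M) γ) x = x :=
    Subtype.ext (by simp [cosetMove, gammaClass_incl])
  refine Subtype.ext ?_
  rw [coe_cosetFac, hm]
  simp [conjGammaH, toGammaH]

variable (Φ : Additive (gammaH δ hNM) →+ K)

/-- Conjugation by `Γ₀(M N²)` commutes with translations up to dilating the argument. -/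
theorem transVal_conj (ε : Gamma0 (M * N ^ 2)) (γ : splitGroup N M) {ε₀ : Gamma0 M}
    (h₀ : gammaClass δ hNM ε₀ = δ (gammaClass (MonoidHom.id _) (dvd_split N M) ε)) {u v : ℤ}
    (hv : ((v : ℤ) : ZMod N) =
      ((gammaClass (MonoidHom.id _) (dvd_split N M) ε : (ZMod N)ˣ) : ZMod N) ^ 2 * (u : ZMod N)) :
    Φ (Additive.ofMul (conjGammaH ε₀ (shiftHom hNM hsq u γ))) =
      Φ (Additive.ofMul (shiftHom hNM hsq v
        (conjGammaH (δ := sqUnits N) (hNM := dvd_split N M) ε γ))) := by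
  obtain ⟨ε', h1, h2⟩ := exists_conj_of_level (δ := δ) hNM ε (u := u) (v := v) (by
    obtain ⟨z, hz⟩ := (ZMod.intCast_zmod_eq_zero_iff_dvd _ _).mp (Gamma0_mem.mp ε.2)
    have hdet := (ε : SL(2, ℤ)).det_coe
    rw [Matrix.det_fin_two, hz] at hdet
    have h := congrArg (Int.cast : ℤ → ZMod N) hdet
    push_cast at h
    rw [ZMod.natCast_self] at h
    simp only [zero_pow two_ne_zero, mul_zero, zero_mul, sub_zero] at h
    rw [hv, coe_gammaClass]
    linear_combination (u : ZMod N) * (((ε : SL(2, ℤ)) 1 1 : ℤ) : ZMod N) * h)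
  rw [map_conjGammaH_congr hNM Φ (h₀.trans h2.symm),
    conjGammaH_shiftHom hNM hsq h1
      (γ' := conjGammaH (δ := sqUnits N) (hNM := dvd_split N M) ε γ) (by
      rw [← Matrix.SpecialLinearGroup.coe_mul, ← Matrix.SpecialLinearGroup.coe_mul]
      refine congrArg _ ?_
      show (ε : SL(2, ℤ)) * ((ε : SL(2, ℤ))⁻¹ * (γ : SL(2, ℤ)) * (ε : SL(2, ℤ))) = _
      rw [mul_assoc, mul_inv_cancel_left])]

variable [NeZero M] {χ : Δ →* Kˣ}
  (hχ : ∀ (ε : Gamma0 M) (y : gammaH δ hNM),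
    Φ (Additive.ofMul (conjGammaH ε y)) = (χ (gammaClass δ hNM ε) : K) * Φ (Additive.ofMul y))

include hχ in
/-- For an eigenfunction the hypothesis is an equation between dilations. -/
theorem sum_transVal_eq_zero (hδ : Function.Surjective δ) (h : CorVanishes hNM hsq Φ)
    (γ : splitGroup N M) (w : ZMod N) :
    ∑ x : Cosets N M,
      ((χ (δ (gammaClass (MonoidHom.id _) (dvd_split N M) (cosetRep x))))⁻¹ : Kˣ).1 *
      transVal hNM hsq Φ γ
        ((gammaClass (MonoidHom.id _) (dvd_split N M) (cosetRep x) : (ZMod N)ˣ) ^ 2 * w) = 0 := by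
  refine Eq.trans (Finset.sum_congr rfl fun x _ => ?_) (h (w.val : ℤ) γ)
  set t := gammaClass (MonoidHom.id _) (dvd_split N M) (cosetRep x)
  obtain ⟨ε₀, h₀⟩ := gammaClass_surjective δ hNM hδ (δ t⁻¹)
  have h1 := transVal_conj hNM hsq Φ (cosetRep x)⁻¹ γ (ε₀ := ε₀)
    (by rw [h₀, map_inv, map_inv, map_inv])
    (u := (((t : ZMod N) ^ 2 * w).val : ℤ)) (v := (w.val : ℤ)) (by
      rw [map_inv]
      simp only [Int.cast_natCast, ZMod.natCast_zmod_val]
      rw [← mul_assoc, ← mul_pow, ← Units.val_mul, inv_mul_cancel, Units.val_one, one_pow, one_mul])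
  rw [hχ, h₀, map_inv, map_inv] at h1
  rw [cosetFac_eq_conj, transVal]
  exact h1

/-- A square root of the inverse of the character. -/
def halfChar (δ : (ZMod N)ˣ →* Δ) (χ : Δ →* Kˣ) : (ZMod N)ˣ →* Kˣ :=
  ((powMonoidHom ((1 + Nat.card Δ) / 2)).comp (χ.comp δ))⁻¹

omit [NeZero N] in
lemma halfChar_sq (hodd : Odd (Nat.card Δ)) (t : (ZMod N)ˣ) :
    halfChar δ χ t ^ 2 = (χ (δ t))⁻¹ := by
  obtain ⟨k, hk⟩ := hodd
  show ((χ (δ t)) ^ ((1 + Nat.card Δ) / 2))⁻¹ ^ 2 = _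
  rw [inv_pow, ← pow_mul, inv_inj, show (1 + Nat.card Δ) / 2 * 2 = Nat.card Δ + 1 by omega,
    pow_succ, ← map_pow, pow_card_eq_one', map_one, one_mul]

/-- The primes at which the character is ramified. -/
def ramifiedList (δ : (ZMod N)ˣ →* Δ) (χ : Δ →* Kˣ) : List (PrimeDiv N) := by
  classical
  haveI : Fintype (PrimeDiv N) := Fintype.subtype N.primeFactors fun q => by
    simp [Nat.mem_primeFactors, NeZero.ne N]
  exact (Finset.univ.filter fun q : PrimeDiv N =>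
    ∃ t ∈ localUnits N q.1 q.2.2, χ (δ t) ≠ 1).toList

lemma mem_ramifiedList {q : PrimeDiv N} :
    q ∈ ramifiedList δ χ ↔ ∃ t ∈ localUnits N q.1 q.2.2, χ (δ t) ≠ 1 := by
  simp [ramifiedList]

variable (hN : Squarefree N) (hodd : Odd (Nat.card Δ))

include hN hodd in
lemma prod_ramified (s : (ZMod N)ˣ) :
    ((ramifiedList δ χ).map fun q =>
      (halfChar δ χ (localPart q.2.2 hN q.2.1 (s ^ 2)) : K)⁻¹).prod = (χ (δ s) : K) := by
  classical
  have : Fintype (PrimeDiv N) := Fintype.subtype N.primeFactors fun q => by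
    simp [Nat.mem_primeFactors, NeZero.ne N]
  have hl : ∀ q : PrimeDiv N, (halfChar δ χ (localPart q.2.2 hN q.2.1 (s ^ 2)) : K)⁻¹ =
      ((χ (δ (localPart q.2.2 hN q.2.1 s)) : Kˣ) : K) := fun q => by
    rw [pow_two, localPart_mul, map_mul, ← pow_two, halfChar_sq hodd, Units.val_inv_eq_inv_val,
      inv_inv]
  simp only [hl]
  rw [← List.prod_toFinset _ (by
    unfold ramifiedList; exact Finset.nodup_toList _)]
  conv_rhs => rw [← prod_localPart hN Finset.univ (fun q => Finset.mem_univ q) s,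
    map_prod, map_prod,
    Units.coe_prod]
  refine Finset.prod_subset (Finset.subset_univ _) fun q _ hq => ?_
  rw [List.mem_toFinset, mem_ramifiedList] at hq
  push Not at hq
  rw [hq _ (localPart_mem _ _ _ _), Units.val_one]

variable [CharZero K]

include hχ hN hodd in
/-- The convolution over all ramified primes vanishes. -/
theorem convList_ramified (hδ : Function.Surjective δ) (h : CorVanishes hNM hsq Φ)
    (γ : splitGroup N M) :
    convList (halfChar δ χ) (ramifiedList δ χ) (transVal hNM hsq Φ γ) 0 = 0 := by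
  set t := fun x : Cosets N M => gammaClass (MonoidHom.id _) (dvd_split N M) (cosetRep x)
  have h1 : convList (halfChar δ χ) (ramifiedList δ χ)
      (fun w => ∑ x : Cosets N M, ((χ (δ (t x)))⁻¹ : Kˣ).1 *
        transVal hNM hsq Φ γ ((t x : (ZMod N)ˣ) ^ 2 * w)) 0 = 0 := by
    rw [show (fun w => ∑ x : Cosets N M, ((χ (δ (t x)))⁻¹ : Kˣ).1 *
        transVal hNM hsq Φ γ ((t x : (ZMod N)ˣ) ^ 2 * w)) = fun _ => (0 : K) from
      funext fun w => sum_transVal_eq_zero hNM hsq Φ hχ hδ h γ w]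
    exact convList_zero _ _ _
  rw [convList_sum] at h1
  simp only [t] at h1
  simp only [← Units.val_pow_eq_pow_val, convList_dilate _ hN, mul_zero, prod_ramified hN hodd,
    ← mul_assoc] at h1
  simp only [Units.val_inv_eq_inv_val, inv_mul_cancel₀ (Units.ne_zero _), one_mul, Finset.sum_const,
    nsmul_eq_mul, Finset.card_univ] at h1
  exact (mul_eq_zero.mp h1).resolve_left (Nat.cast_ne_zero.mpr Fintype.card_ne_zero)

omit [CharZero K] [NeZero M] in
/-- Convolutions are additive on the split group. -/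
lemma convList_transVal_mul (ψ : (ZMod N)ˣ →* Kˣ) (l : List (PrimeDiv N)) (w : ZMod N)
    (a b : splitGroup N M) :
    convList ψ l (transVal hNM hsq Φ (a * b)) w =
      convList ψ l (transVal hNM hsq Φ a) w + convList ψ l (transVal hNM hsq Φ b) w := by
  rw [← convList_add]
  exact congrArg (fun g => convList ψ l g w) (funext fun v => transVal_mul hNM hsq Φ a b v)

/-- Vanishing at the origin spreads to every point. -/
theorem convList_eq_zero_of_origin (ψ : (ZMod N)ˣ →* Kˣ) (l : List (PrimeDiv N))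
    (h : ∀ γ, convList ψ l (transVal hNM hsq Φ γ) 0 = 0) (γ : splitGroup N M) (w : ZMod N) :
    convList ψ l (transVal hNM hsq Φ γ) w = 0 := by
  obtain ⟨m, rfl⟩ := ZMod.intCast_surjective w
  have : NeZero ((shiftMat N m).det.natAbs) := ⟨Int.natAbs_ne_zero.mpr (det_shiftMat_ne m)⟩
  refine eq_zero_of_deep (fun γ => convList ψ l (transVal hNM hsq Φ γ) (m : ZMod N))
    (convList_transVal_mul hNM hsq Φ ψ l _)
    (n := M * N ^ 2 * (shiftMat N m).det.natAbs) (fun a ha => ?_) γ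
  obtain ⟨a', ha', e⟩ := exists_conj_mem_Gamma (shiftMat N m) (M * N ^ 2) ha (det_shiftMat_ne m)
  have h1 := h ⟨a', Gamma_le_splitGroup ha'⟩
  rw [show transVal hNM hsq Φ ⟨a', Gamma_le_splitGroup ha'⟩ =
      fun v => transVal hNM hsq Φ a (v + m) from
    funext fun v => transVal_shift hNM hsq Φ e v, convList_translate, zero_add] at h1
  exact h1

section Step

variable {q : PrimeDiv N} {l : List (PrimeDiv N)} (hl : q ∉ l)
variable (hinv : ∀ (γ : splitGroup N M) (w x : ZMod N),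
  convList (halfChar δ χ) l (transVal hNM hsq Φ γ) (w + x * ((N / q.1 : ℕ) : ZMod N)) =
    convList (halfChar δ χ) l (transVal hNM hsq Φ γ) w)

omit [CharZero K] [NeZero M] in
include hinv in
lemma invar_translation (k : ℤ) :
    Invar (fun γ => convList (halfChar δ χ) l (transVal hNM hsq Φ γ) 0)
      (shiftMat N (((N / q.1 : ℕ) : ℤ) * k)) := by
  refine ⟨det_shiftMat_ne _, 1, one_ne_zero, fun γ γ' _ e => ?_⟩
  show convList (halfChar δ χ) l (transVal hNM hsq Φ γ') 0 = _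
  rw [show transVal hNM hsq Φ γ' =
      fun v => transVal hNM hsq Φ γ (v + ((((N / q.1 : ℕ) : ℤ) * k : ℤ) : ZMod N)) from
    funext fun v => transVal_shift hNM hsq Φ e v, convList_translate, zero_add]
  rw [Int.cast_mul, Int.cast_natCast, mul_comm]
  have := hinv γ 0 (k : ZMod N)
  rwa [zero_add] at this

omit [CharZero K] [NeZero M] in
include hl hχ in
/-- Conjugation by an element nearly diagonal away from `q`. -/
theorem convList_conj_partial {R : ℕ} (hqR : q.1 * R = N) {P : SL(2, ℤ)}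
    (hc : (M : ℤ) * (R : ℤ) ^ 2 ∣ P 1 0) (had : (R : ℤ) ∣ P 1 1 - P 0 0)
    {γ γ' : splitGroup N M}
    (hγ : (P : Mat2Z) * ((γ : SL(2, ℤ)) : Mat2Z) = ((γ' : SL(2, ℤ)) : Mat2Z) * (P : Mat2Z)) :
    ∃ hP : P ∈ Gamma0 M, convList (halfChar δ χ) l (transVal hNM hsq Φ γ) 0 =
      (χ (gammaClass δ hNM ⟨P, hP⟩) : K) * convList (halfChar δ χ) l (transVal hNM hsq Φ γ') 0 := by
  obtain ⟨hP, -, -, -⟩ := exists_conj_of_partial hNM (δ := δ) hqR hc had (dvd_zero (q.1 : ℤ))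
  refine ⟨hP, convList_congr _ l hl _ _ _ (fun w hw => ?_) 0 (map_zero _)⟩
  have hdvd : (q.1 : ℤ) ∣ (w.val : ℤ) := by
    rw [← ZMod.natCast_zmod_val w, map_natCast, ZMod.natCast_eq_zero_iff] at hw
    exact Int.natCast_dvd_natCast.mpr hw
  obtain ⟨_, ε', h1, hε'⟩ := exists_conj_of_partial hNM (δ := δ) hqR hc had hdvd
  have h3 := hχ ε' (shiftHom hNM hsq (w.val : ℤ) γ')
  rw [conjGammaH_shiftHom hNM hsq h1 (γ' := γ) hγ, hε'] at h3
  rw [transVal, transVal]
  exact h3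

omit [CharZero K] [NeZero M] in
include hl hχ in
private lemma invar_lower {R : ℕ} (hqR : q.1 * R = N) (x : ℤ) :
    Invar (fun γ => convList (halfChar δ χ) l (transVal hNM hsq Φ γ) 0)
      (!![1, 0; (M : ℤ) * (R : ℤ) ^ 2 * x, 1]) := by
  refine ⟨by simp [Matrix.det_fin_two_of], 1, one_ne_zero, fun γ γ' _ e => ?_⟩
  obtain ⟨hP, h⟩ := convList_conj_partial hNM hsq Φ hχ hl hqR
    (P := ⟨!![1, 0; (M : ℤ) * (R : ℤ) ^ 2 * x, 1], by simp [Matrix.det_fin_two_of]⟩)
    (dvd_mul_right _ x) (by simp) e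
  have hcl : gammaClass δ hNM ⟨_, hP⟩ = 1 :=
    (congrArg δ (Units.ext (by rw [coe_lowerRightUnit]; simp))).trans (map_one δ)
  rw [hcl, map_one, Units.val_one, one_mul] at h
  exact h.symm

/-- An integer with the components of a local unit at `q` and away from `q` is that unit. -/
private lemma intCast_eq_localUnit {p : ℕ} (hpN : p ∣ N) (hcop : p.Coprime (N / p))
    {τ : (ZMod N)ˣ} (hτ : τ ∈ localUnits N p hpN) {d : ℤ}
    (hp : (d : ZMod p) = ZMod.castHom hpN (ZMod p) (τ : ZMod N))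
    (hR : (d : ZMod (N / p)) = 1) : (d : ZMod N) = τ := by
  have hτR := (mem_localUnits hpN).mp hτ
  obtain ⟨T, hT⟩ := ZMod.intCast_surjective (τ : ZMod N)
  rw [← hT, map_intCast] at hτR hp
  rw [← hT, ZMod.intCast_eq_intCast_iff_dvd_sub]
  have := (Nat.isCoprime_iff_coprime.mpr hcop).mul_dvd
    ((ZMod.intCast_eq_intCast_iff_dvd_sub _ _ _).mp hp)
    ((ZMod.intCast_eq_intCast_iff_dvd_sub _ _ _).mp (hR.trans hτR.symm))
  rwa [← Nat.cast_mul, Nat.mul_div_cancel' hpN] at this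

include hl hinv hχ hN in
/-- A function invariant under translations at a ramified prime vanishes. -/
theorem convList_eq_zero_of_translate (hM : ¬ q.1 ^ 2 ∣ M)
    (hram : ∃ t ∈ localUnits N q.1 q.2.2, χ (δ t) ≠ 1) (γ : splitGroup N M) :
    convList (halfChar δ χ) l (transVal hNM hsq Φ γ) 0 = 0 := by
  obtain ⟨τ, hτ, hτ1⟩ := hram
  obtain ⟨hq, hqN⟩ := q.2
  set qn : ℕ := q.1 with hqn
  have : Fact qn.Prime := ⟨hq⟩
  obtain ⟨M', hM'⟩ := hqN.trans hNM
  have hqM' : ¬ qn ∣ M' := fun ⟨z, hz⟩ => hM ⟨z, by rw [hM', hz]; ring⟩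
  set R : ℕ := N / qn with hR
  have hqR : qn * R = N := Nat.mul_div_cancel' hqN
  have hqR' : (R : ZMod qn) ≠ 0 := fun h => by
    rw [ZMod.natCast_eq_zero_iff] at h
    exact hq.one_lt.ne' (Nat.eq_one_of_dvd_coprimes (coprime_step hqN hN) dvd_rfl h).symm.symm
  have hM'0 : (M' : ZMod qn) ≠ 0 := fun h => hqM' ((ZMod.natCast_eq_zero_iff _ _).mp h)
  set s : ZMod qn := ZMod.castHom hqN (ZMod qn) (τ : ZMod N)
  have hs : s ≠ 0 := castHom_localUnit_ne_zero hqN hq τ
  -- the parameters of the word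
  obtain ⟨k₁, hk₁⟩ := ZMod.intCast_surjective (s⁻¹ * ((R : ZMod qn) ^ 2)⁻¹)
  obtain ⟨k₂, hk₂⟩ := ZMod.intCast_surjective (-((R : ZMod qn) ^ 2)⁻¹)
  obtain ⟨x₁, hx₁⟩ := ZMod.intCast_surjective (-s * ((M' : ZMod qn) * (R : ZMod qn) ^ 2)⁻¹)
  obtain ⟨x₂, hx₂⟩ := ZMod.intCast_surjective (((M' : ZMod qn) * (R : ZMod qn) ^ 2)⁻¹)
  set t₁ : ℤ := (R : ℤ) ^ 2 * k₁
  set t₂ : ℤ := (R : ℤ) ^ 2 * k₂
  set c₁ : ℤ := (M' : ℤ) * (R : ℤ) ^ 2 * x₁
  set c₂ : ℤ := (M' : ℤ) * (R : ℤ) ^ 2 * x₂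
  have et₁ : (t₁ : ZMod qn) = s⁻¹ := by
    simp only [t₁]; push_cast; rw [hk₁]; field_simp
  have et₂ : (t₂ : ZMod qn) = -1 := by
    simp only [t₂]; push_cast; rw [hk₂]; field_simp
  have ec₁ : (c₁ : ZMod qn) = -s := by
    simp only [c₁]; push_cast; rw [hx₁]; field_simp
  have ec₂ : (c₂ : ZMod qn) = 1 := by
    simp only [c₂]; push_cast; rw [hx₂]; field_simp
  -- the word
  set a' := (1 + t₁ * c₁) * (1 + t₂ * c₂) + t₁ * (2 + t₁ * c₁) * c₂
  set b' := (1 + t₁ * c₁) * (t₂ * (2 + t₂ * c₂)) + t₁ * (2 + t₁ * c₁) * (1 + t₂ * c₂)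
  set c' := c₁ * (1 + t₂ * c₂) + (1 + t₁ * c₁) * c₂
  set d' := c₁ * (t₂ * (2 + t₂ * c₂)) + (1 + t₁ * c₁) * (1 + t₂ * c₂)
  obtain ⟨bq, hbq⟩ : (qn : ℤ) ∣ b' := by
    rw [← ZMod.intCast_zmod_eq_zero_iff_dvd]
    simp only [b']; push_cast; rw [et₁, et₂, ec₁, ec₂]; field_simp; ring
  obtain ⟨cz, hcz⟩ : (qn : ℤ) * ((M' : ℤ) * (R : ℤ) ^ 2) ∣ c' := by
    refine IsCoprime.mul_dvd ?_ ?_ ⟨x₁ * (1 + t₂ * c₂) + (1 + t₁ * c₁) * x₂, by
      simp only [c', c₁, c₂]; ring⟩
    · rw [show (M' : ℤ) * (R : ℤ) ^ 2 = ((M' * R ^ 2 : ℕ) : ℤ) by push_cast; ring]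
      exact Nat.isCoprime_iff_coprime.mpr ((hq.coprime_iff_not_dvd.mpr hqM').mul_right
        ((coprime_step hqN hN).pow_right 2))
    · rw [← ZMod.intCast_zmod_eq_zero_iff_dvd]
      simp only [c']; push_cast; rw [et₁, et₂, ec₁, ec₂]; field_simp; ring
  let P : SL(2, ℤ) := ⟨!![a', bq; (qn : ℤ) * c', d'], by
    rw [Matrix.det_fin_two_of]
    have e : a' * d' - b' * c' = 1 := by simp only [a', b', c', d']; ring
    linear_combination e + c' * hbq⟩
  have hc : (M : ℤ) * (R : ℤ) ^ 2 ∣ P 1 0 := ⟨(qn : ℤ) * cz, by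
    show (qn : ℤ) * c' = _
    rw [hcz, hM']; push_cast; ring⟩
  have had : (R : ℤ) ∣ P 1 1 - P 0 0 :=
    ⟨(R : ℤ) * (k₂ * c₁ * (2 + t₂ * c₂) - k₁ * (2 + t₁ * c₁) * c₂), by
      show d' - a' = _
      simp only [a', d', t₁, t₂]; ring⟩
  -- invariance
  set H := fun γ : splitGroup N M => convList (halfChar δ χ) l (transVal hNM hsq Φ γ) 0
  have hL : ∀ x : ℤ, Invar H (!![1, 0; (M : ℤ) * (R : ℤ) ^ 2 * x, 1]) :=
    invar_lower hNM hsq Φ hχ hl hqR
  have hA := invar_translation hNM hsq Φ hinv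
  have hword := ((((hA ((R : ℤ) ^ 2 * k₁)).mul (hL x₁)).mul (hA ((R : ℤ) ^ 2 * k₁))).mul
    (((hA ((R : ℤ) ^ 2 * k₂)).mul (hL x₂)).mul (hA ((R : ℤ) ^ 2 * k₂))))
  have heq : shiftMat N ((R : ℤ) * ((R : ℤ) ^ 2 * k₁)) * !![1, 0; (M : ℤ) * (R : ℤ) ^ 2 * x₁, 1] *
      shiftMat N ((R : ℤ) * ((R : ℤ) ^ 2 * k₁)) * (shiftMat N ((R : ℤ) * ((R : ℤ) ^ 2 * k₂)) *
        !![1, 0; (M : ℤ) * (R : ℤ) ^ 2 * x₂, 1] * shiftMat N ((R : ℤ) * ((R : ℤ) ^ 2 * k₂))) =
      (N : ℤ) ^ 4 • (P : Mat2Z) := by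
    have hNc : (N : ℤ) = (qn : ℤ) * R := by rw [← hqR]; push_cast; ring
    have hMc : (M : ℤ) = (qn : ℤ) * M' := by rw [hM']; push_cast; ring
    refine Matrix.ext (Fin.forall_fin_two.mpr
      ⟨Fin.forall_fin_two.mpr ⟨?_, ?_⟩, Fin.forall_fin_two.mpr ⟨?_, ?_⟩⟩) <;>
      simp [P, shiftMat, Matrix.mul_apply, Fin.sum_univ_two, hNc, hMc]
    · simp only [a', t₁, t₂, c₁, c₂]; ring
    · have := hbq
      simp only [b', t₁, t₂, c₁, c₂] at this
      linear_combination (qn : ℤ) ^ 3 * (R : ℤ) ^ 4 * this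
    · simp only [c', t₁, t₂, c₁, c₂]; ring
    · simp only [d', t₁, t₂, c₁, c₂]; ring
  rw [heq] at hword
  obtain ⟨hP0, n, hn, hPinv⟩ := hword.of_smul
  -- conclusion
  have : NeZero (n * (M * N ^ 2) * (P : Mat2Z).det.natAbs) :=
    ⟨mul_ne_zero (mul_ne_zero hn (NeZero.ne _)) (Int.natAbs_ne_zero.mpr hP0)⟩
  refine eq_zero_of_deep H (convList_transVal_mul hNM hsq Φ _ l 0)
    (n := n * (M * N ^ 2) * (P : Mat2Z).det.natAbs) (fun a ha => ?_) γ
  obtain ⟨a', ha', e⟩ := exists_conj_mem_Gamma (P : Mat2Z) (n * (M * N ^ 2)) ha hP0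
  let g : splitGroup N M := ⟨a', Gamma_le_splitGroup (ES.gamma_le_of_dvd (dvd_mul_left _ n) ha')⟩
  obtain ⟨hPM, h⟩ := convList_conj_partial hNM hsq Φ hχ hl hqR hc had (γ := a) (γ' := g) e
  have h2 : H g = H a := hPinv a g
    (ES.gamma_le_of_dvd ((dvd_mul_right n _).trans (dvd_mul_right _ _)) ha) e
  have hcl : gammaClass δ hNM ⟨P, hPM⟩ = δ τ := by
    refine congrArg δ (Units.ext ?_)
    rw [coe_lowerRightUnit]
    show ((d' : ℤ) : ZMod N) = _
    refine intCast_eq_localUnit hqN (coprime_step hqN hN) hτ ?_ ?_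
    · show (d' : ZMod qn) = s
      simp only [d']; push_cast; rw [et₁, et₂, ec₁, ec₂]; field_simp; ring
    · simp only [d', t₁, t₂, c₁, c₂]; push_cast
      rw [ZMod.natCast_self]; ring
  rw [hcl] at h
  change H a = _ * H g at h
  rw [h2] at h
  have h3 : ((χ (δ τ) : K) - 1) * H a = 0 := by rw [sub_mul, one_mul, ← h, sub_self]
  exact (mul_eq_zero.mp h3).resolve_left (sub_ne_zero.mpr fun e => hτ1 (Units.ext e))

end Step

include hχ hN hodd in
/-- An eigen homomorphism with vanishing corestrictions vanishes. -/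
theorem eq_zero_of_corVanishes_eigen (hδ : Function.Surjective δ)
    (hM : ∀ q : ℕ, q.Prime → q ∣ N → ¬ q ^ 2 ∣ M) (h : CorVanishes hNM hsq Φ) : Φ = 0 := by
  have hnd : (ramifiedList δ χ).Nodup := by
    classical
    unfold ramifiedList
    exact Finset.nodup_toList _
  have key : ∀ l : List (PrimeDiv N), l.Nodup → (∀ q ∈ l, ∃ t ∈ localUnits N q.1 q.2.2,
      χ (δ t) ≠ 1) →
      (∀ γ, convList (halfChar δ χ) l (transVal hNM hsq Φ γ) 0 = 0) →
      ∀ γ, transVal hNM hsq Φ γ 0 = 0 := by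
    intro l
    induction l with
    | nil => exact fun _ _ h0 γ => h0 γ
    | cons q l ih =>
      intro hnd hr h0
      obtain ⟨hql, hnd'⟩ := List.nodup_cons.mp hnd
      refine ih hnd' (fun x hx => hr x (List.mem_cons_of_mem _ hx)) fun γ => ?_
      obtain ⟨t, ht, ht1⟩ := hr q List.mem_cons_self
      have hψ : ∃ t ∈ localUnits N q.1 q.2.2, halfChar δ χ t ≠ 1 := ⟨t, ht, fun e => ht1 (by
        have := halfChar_sq (δ := δ) (χ := χ) hodd t
        rw [e, one_pow] at this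
        exact inv_eq_one.mp this.symm)⟩
      refine convList_eq_zero_of_translate hNM hsq Φ hχ hN hql (fun γ' w x =>
        translate_of_convOp_eq_zero q.2.2 hN q.2.1 (halfChar δ χ) hψ
          (fun w' => convList_eq_zero_of_origin hNM hsq Φ _ (q :: l) h0 γ' w') w x)
        (hM q.1 q.2.1 q.2.2) ⟨t, ht, ht1⟩ γ
  have h0 := key _ hnd (fun q hq => mem_ramifiedList.mp hq)
    (convList_ramified hNM hsq Φ hχ hN hodd hδ h)
  refine AddMonoidHom.ext fun y => ?_
  obtain ⟨y, rfl⟩ := Additive.ofMul.surjective y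
  have hmem : ∀ g : gammaH δ hNM, (g : SL(2, ℤ)) ∈ Gamma (M * N ^ 2) →
      Φ (Additive.ofMul g) = 0 := fun g hg => by
    have e : shiftHom hNM hsq ((0 : ZMod N).val : ℤ) ⟨g, Gamma_le_splitGroup hg⟩ = g := by
      refine Subtype.ext (shift_cancel (u := ((0 : ZMod N).val : ℤ)) (N := N) ?_)
      rw [← shiftHom_spec, ZMod.val_zero]
      ext i j
      fin_cases i <;> fin_cases j <;> simp [shiftMat, Matrix.mul_apply, Fin.sum_univ_two] <;> ring
    have := h0 ⟨g, Gamma_le_splitGroup hg⟩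
    rwa [transVal, e] at this
  obtain ⟨j, hj, -, hjm⟩ := Subgroup.exists_pow_mem_of_index_ne_zero
    (H := (Gamma (M * N ^ 2)).subgroupOf (gammaH δ hNM)) Subgroup.FiniteIndex.index_ne_zero y
  have h1 := hmem _ (Subgroup.mem_subgroupOf.mp hjm)
  rw [ofMul_pow, map_nsmul] at h1
  exact (smul_eq_zero.mp h1).resolve_left hj.ne'

variable [Finite Δ]

include hN hodd in
omit hχ in
/-- **The split level detects homomorphisms of `Γ_H`.** -/
theorem eq_zero_of_corVanishes [IsAlgClosed K] (hδ : Function.Surjective δ)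
    (hM : ∀ q : ℕ, q.Prime → q ∣ N → ¬ q ^ 2 ∣ M) (h : CorVanishes hNM hsq Φ) : Φ = 0 := by
  classical
  have : Fintype Δ := Fintype.ofFinite Δ
  have : Finite (Δ →* Kˣ) :=
    Finite.of_equiv Δ (CommGroup.monoidHom_mulEquiv_of_hasEnoughRootsOfUnity Δ K).some.symm.toEquiv
  have : Fintype (Δ →* Kˣ) := Fintype.ofFinite _
  choose ε hε using fun e : Δ => gammaClass_surjective δ (dvd_split N M) hδ e
  have hle : Gamma0 (M * N ^ 2) ≤ Gamma0 M := fun g hg => by
    rw [Gamma0_mem, ZMod.intCast_zmod_eq_zero_iff_dvd] at hg ⊢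
    exact dvd_trans (Int.natCast_dvd_natCast.mpr (dvd_mul_right M (N ^ 2))) hg
  set ι : Δ → Gamma0 M := fun e => Subgroup.inclusion hle (ε e)
  have hι : ∀ e, gammaClass δ hNM (ι e) = e := fun e => hε e
  -- conjugates satisfy the hypothesis
  let conjΦ : Δ → Additive (gammaH δ hNM) →+ K :=
    fun e => Φ.comp (MonoidHom.toAdditive (conjGammaH (ι e)))
  have hconjΦ : ∀ e y, conjΦ e (Additive.ofMul y) = Φ (Additive.ofMul (conjGammaH (ι e) y)) :=
    fun e y => rfl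
  have hvan : ∀ e, CorVanishes hNM hsq (conjΦ e) := fun e u γ => by
    set v : ℤ := ((((gammaClass (MonoidHom.id _) (dvd_split N M) (ε e) : (ZMod N)ˣ) : ZMod N) ^ 2 *
      (u : ZMod N)).val : ℤ)
    refine Eq.trans (Finset.sum_congr rfl fun x _ => ?_)
      (h v (conjGammaH (δ := sqUnits N) (hNM := dvd_split N M) (ε e) γ))
    rw [hconjΦ, transVal_conj hNM hsq Φ (ε e) _ ((hι e).trans (hε e).symm) (v := v) (by simp [v]),
      cosetFac_eq_conj, cosetFac_eq_conj]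
    set a := (cosetRep x)⁻¹
    have e1 : ∀ (p r : Gamma0 (M * N ^ 2)) (z : splitGroup N M),
        conjGammaH (δ := sqUnits N) (hNM := dvd_split N M) p
          (conjGammaH (δ := sqUnits N) (hNM := dvd_split N M) r z) =
        conjGammaH (δ := sqUnits N) (hNM := dvd_split N M) (r * p) z := fun p r z =>
      Subtype.ext (by simp [conjGammaH, toGammaH, mul_assoc])
    rw [e1, e1]
    exact congrArg Multiplicative.toAdd (DFunLike.congr_fun
      (comp_conjGammaH_congr (hNM := dvd_split N M) (δ := sqUnits N)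
        ((AddMonoidHom.toMultiplicativeRight Φ).comp (shiftHom hNM hsq v))
        (ε := a * ε e) (ε' := ε e * a) (by rw [map_mul, map_mul, mul_comm])) γ)
  -- isotypic parts vanish
  have : NeZero ((Monoid.exponent Δ : ℕ) : K) :=
    ⟨Nat.cast_ne_zero.mpr Monoid.exponent_ne_zero_of_finite⟩
  have heig : ∀ χ : Δ →* Kˣ, ∑ e : Δ, (((χ e)⁻¹ : Kˣ) : K) • conjΦ e = 0 := fun χ => by
    refine eq_zero_of_corVanishes_eigen hNM hsq (∑ e : Δ, (((χ e)⁻¹ : Kˣ) : K) • conjΦ e)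
      (χ := χ) (fun ε' y => ?_) hN hodd hδ hM fun u γ => ?_
    · simp only [AddMonoidHom.finsetSum_apply, AddMonoidHom.smul_apply, hconjΦ, smul_eq_mul,
        Finset.mul_sum]
      refine Fintype.sum_equiv (Equiv.mulLeft (gammaClass δ hNM ε')) _ _ fun e => ?_
      rw [Equiv.coe_mulLeft, map_mul, mul_inv, Units.val_mul, ← mul_assoc, ← mul_assoc,
        Units.mul_inv, one_mul]
      refine congrArg (_ * ·) ?_
      rw [show conjGammaH (ι e) (conjGammaH ε' y) = conjGammaH (ε' * ι e) y from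
        Subtype.ext (by simp [conjGammaH, toGammaH, mul_assoc])]
      exact map_conjGammaH_congr hNM Φ (by rw [map_mul, hι, hι]) y
    · simp only [AddMonoidHom.finsetSum_apply, AddMonoidHom.smul_apply, smul_eq_mul]
      rw [Finset.sum_comm]
      refine Finset.sum_eq_zero fun e _ => ?_
      rw [← Finset.mul_sum, hvan e u γ, mul_zero]
  -- orthogonality
  have horth : ∀ e : Δ, e ≠ 1 → ∑ χ : Δ →* Kˣ, (((χ e)⁻¹ : Kˣ) : K) = 0 := fun e he => by
    obtain ⟨χ₀, hχ₀⟩ := CommGroup.exists_apply_ne_one_of_hasEnoughRootsOfUnity Δ K he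
    have h1 : (((χ₀ e)⁻¹ : Kˣ) : K) * ∑ χ : Δ →* Kˣ, (((χ e)⁻¹ : Kˣ) : K) =
        ∑ χ : Δ →* Kˣ, (((χ e)⁻¹ : Kˣ) : K) := by
      rw [Finset.mul_sum]
      exact Fintype.sum_equiv (Equiv.mulLeft χ₀) _ _ fun χ => by simp [mul_comm]
    refine (mul_eq_zero.mp (show ((((χ₀ e)⁻¹ : Kˣ) : K) - 1) *
      ∑ χ : Δ →* Kˣ, (((χ e)⁻¹ : Kˣ) : K) = 0 by rw [sub_mul, h1, one_mul, sub_self])).resolve_left
        (sub_ne_zero.mpr fun e' => hχ₀ ?_)
    exact inv_eq_one.mp (Units.ext e')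
  refine AddMonoidHom.ext fun y => ?_
  have h2 : ∑ χ : Δ →* Kˣ, ∑ e : Δ, (((χ e)⁻¹ : Kˣ) : K) * conjΦ e y = 0 :=
    Finset.sum_eq_zero fun χ _ => by
      simpa [AddMonoidHom.finsetSum_apply] using DFunLike.congr_fun (heig χ) y
  rw [Finset.sum_comm, Finset.sum_eq_single (1 : Δ) (fun e _ he => by
    rw [← Finset.sum_mul, horth e he, zero_mul]) (fun hn => absurd (Finset.mem_univ _) hn)] at h2
  simp only [map_one, inv_one, Units.val_one, one_mul, Finset.sum_const, nsmul_eq_mul,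
    Finset.card_univ] at h2
  have h3 := (mul_eq_zero.mp h2).resolve_left (Nat.cast_ne_zero.mpr Fintype.card_ne_zero)
  obtain ⟨y, rfl⟩ := Additive.ofMul.surjective y
  rw [hconjΦ, map_conjGammaH_congr hNM Φ (ε' := 1) (by rw [hι, map_one]),
    show conjGammaH (1 : Gamma0 M) y = y from Subtype.ext (by simp [conjGammaH, toGammaH])] at h3
  exact h3

end FermatAgent.Flat.Split
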