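import Fermat.Agent.Flat.Split.Inject
import Fermat.Agent.HM.Gal.Padic
import Mathlib.NumberTheory.Padics.PadicNumbers
import Mathlib.FieldTheory.IsAlgClosed.AlgebraicClosure

/-!
# The map to the split level on `p`-adic homomorphisms
-/

set_option autoImplicit false

open CongruenceSubgroup
open scoped MatrixGroups
open ModularCurve ModularCurve.Period
open FermatAgent.HM
open FermatAgent.ES (GQ galChar padChar parGroup)

noncomputable section

namespace FermatAgent.Flat.Split

variable {Δ : Type*} [CommGroup Δ] {N M : ℕ} [NeZero N]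
variable {δ : (ZMod N)ˣ →* Δ} (hNM : N ∣ M) (hsq : ∀ x : (ZMod N)ˣ, x ^ 2 = 1 → δ x = 1)

section Lin

variable {R : Type*} [CommRing R]

/-- The corestrictions of the translates of a homomorphism. -/
def splitHom (Φ : Additive (gammaH δ hNM) →+ R) (u : ZMod N) :
    Additive (Gamma0 (M * N ^ 2)) →+ R :=
  AddMonoidHom.toMultiplicativeRight.symm
    (corHom ((AddMonoidHom.toMultiplicativeRight Φ).comp (shiftHom hNM hsq (u.val : ℤ))))

/-- The formula for `splitHom`. -/
lemma splitHom_apply (Φ : Additive (gammaH δ hNM) →+ R) (u : ZMod N) (γ : Gamma0 (M * N ^ 2)) :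
    splitHom hNM hsq Φ u (Additive.ofMul γ) =
      ∑ x : Cosets N M, Φ (Additive.ofMul (shiftHom hNM hsq (u.val : ℤ) (cosetFac γ x))) := by
  exact toAdd_prod Finset.univ _

lemma splitHom_parabolic (hN : Squarefree N) {Φ : Additive (gammaH δ hNM) →+ R}
    (hΦ : IsParabolicHom (gammaH δ hNM) Φ) (u : ZMod N) :
    IsParabolicHom (Gamma0 (M * N ^ 2)) (splitHom hNM hsq Φ u) := fun γ hγ => by
  rw [splitHom_apply]
  refine Finset.sum_eq_zero fun x _ => hΦ _ ?_
  have hm : cosetMove γ x = x := Subtype.ext (by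
    simp [cosetMove, cls_eq_one_of_trace hN hγ])
  rw [trace_shiftHom, coe_cosetFac, hm, Matrix.SpecialLinearGroup.coe_mul, Matrix.trace_mul_comm,
    ← Matrix.SpecialLinearGroup.coe_mul, inv_mul_cancel_left]
  exact hγ

variable (hN : Squarefree N)

/-- The map to the split level. -/
def splitLin : parabolicHoms R (gammaH δ hNM) R →ₗ[R]
    (ZMod N → parabolicHoms R (Gamma0 (M * N ^ 2)) R) where
  toFun Φ u := ⟨splitHom hNM hsq Φ.1 u, splitHom_parabolic hNM hsq hN Φ.2 u⟩
  map_add' Φ Φ' := funext fun u => Subtype.ext (AddMonoidHom.ext fun x => by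
    obtain ⟨γ, rfl⟩ := Additive.ofMul.surjective x
    show splitHom hNM hsq (Φ.1 + Φ'.1) u (Additive.ofMul γ) =
      splitHom hNM hsq Φ.1 u (Additive.ofMul γ) + splitHom hNM hsq Φ'.1 u (Additive.ofMul γ)
    simp only [splitHom_apply, AddMonoidHom.add_apply, Finset.sum_add_distrib])
  map_smul' a Φ := funext fun u => Subtype.ext (AddMonoidHom.ext fun x => by
    obtain ⟨γ, rfl⟩ := Additive.ofMul.surjective x
    show splitHom hNM hsq (a • Φ.1) u (Additive.ofMul γ) =
      a • splitHom hNM hsq Φ.1 u (Additive.ofMul γ)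
    simp only [splitHom_apply, AddMonoidHom.smul_apply, Finset.smul_sum])

/-- The components of `splitLin`. -/
lemma splitLin_apply (Φ : parabolicHoms R (gammaH δ hNM) R) (u : ZMod N) :
    (splitLin hNM hsq hN Φ u).1 = splitHom hNM hsq Φ.1 u := rfl

end Lin

variable (p : ℕ) [hp : Fact p.Prime] (hN : Squarefree N)

theorem padChar_splitLin (Φ : parabolicHoms ℤ_[p] (gammaH δ hNM) ℤ_[p]) (u : ZMod N) (k : ℕ) :
    padChar p k (splitLin hNM hsq hN Φ u) =
      corChar hN (shiftChar hNM hsq (u.val : ℤ) (padChar p k Φ)) := by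
  refine Subtype.ext (MonoidHom.ext fun γ => ?_)
  rw [ES.padChar_apply, splitLin_apply, splitHom_apply, map_sum, ES.zU_sum]
  rfl

variable (hneg : δ (-1) = 1)

variable [NeZero M]

/-- **Galois permutes the components.** -/
theorem galPad_splitLin (g : GQ) (Φ : parabolicHoms ℤ_[p] (gammaH δ hNM) ℤ_[p]) (u : ZMod N) :
    ES.galPad p g (splitLin hNM hsq hN Φ u) =
      splitLin hNM hsq hN (galParLin p hneg g Φ) ((cycloN N g : ZMod N) * u) := by
  refine ES.padChar_ext p fun k => ?_
  rw [ES.padChar_galPad, padChar_splitLin, padChar_splitLin, galChar_corChar, galParLin_apply,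
    padChar_galParPad]
  exact congrArg (corChar hN) (galChar_shiftChar hNM hsq hneg g u (padChar p k Φ))

variable [Finite Δ]

/-- **The map to the split level is injective.** -/
theorem splitLin_injective (hδ : Function.Surjective δ) (hodd : Odd (Nat.card Δ))
    (hM : ∀ q : ℕ, q.Prime → q ∣ N → ¬ q ^ 2 ∣ M) :
    Function.Injective (splitLin (R := ℤ_[p]) hNM hsq hN) := by
  rw [injective_iff_map_eq_zero]
  intro Φ hΦ
  let ι : ℤ_[p] →+* AlgebraicClosure ℚ_[p] :=
    (algebraMap ℚ_[p] (AlgebraicClosure ℚ_[p])).comp PadicInt.Coe.ringHom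
  have hι : Function.Injective ι :=
    (algebraMap ℚ_[p] (AlgebraicClosure ℚ_[p])).injective.comp Subtype.coe_injective
  have : CharZero (AlgebraicClosure ℚ_[p]) :=
    charZero_of_injective_algebraMap (algebraMap ℚ_[p] (AlgebraicClosure ℚ_[p])).injective
  have hcor : CorVanishes hNM hsq (ι.toAddMonoidHom.comp Φ.1) := fun u γ => by
    show ∑ x : Cosets N M, ι _ = 0
    rw [← map_sum]
    refine (congrArg ι ?_).trans (map_zero ι)
    have h := DFunLike.congr_fun (congrArg Subtype.val (congrFun hΦ (u : ZMod N)))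
      (Additive.ofMul (gammaHIncl (sqUnits N) (dvd_split N M) γ))
    rw [splitLin_apply, splitHom_apply] at h
    refine Eq.trans (Finset.sum_congr rfl fun x _ => ?_) h
    exact (congrArg Multiplicative.toAdd (DFunLike.congr_fun (comp_shiftHom_congr hNM hsq
      (AddMonoidHom.toMultiplicativeRight Φ.1) (u := ((u : ZMod N).val : ℤ)) (v := u)
        (by simp)) _)).symm
  have h := eq_zero_of_corVanishes hNM hsq _ hN hodd hδ hM hcor
  refine Subtype.ext (AddMonoidHom.ext fun x => hι ?_)
  exact (DFunLike.congr_fun h x).trans (map_zero ι).symm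

end FermatAgent.Flat.Split
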