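import Fermat.Agent.HM.Gal.Commute
import Fermat.Agent.HM.Gal.Congruence
import Fermat.Agent.HM.Gal.Local

/-!
# Translating `Γ_H` to a split level

Conjugation by `τ ↦ τ + u / N` maps the elements of `Γ₀(M N²)` whose lower right entry squares
to one modulo `N` into `Γ_H`, if `δ` kills the units squaring to one.  On parabolic
characters Galois permutes these translations.
-/

set_option autoImplicit false

open UpperHalfPlane CongruenceSubgroup
open scoped MatrixGroups ModularForm Manifold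
open FermatAgent.ES (IsTwist IsParChar parGroup HasExp conjChar GQ galChar autC embC zetaC qm)
open FermatAgent.HM

noncomputable section

namespace FermatAgent.Flat.Split

variable {Δ : Type*} [CommGroup Δ] {N M : ℕ} [NeZero N]
variable {δ : (ZMod N)ˣ →* Δ} (hNM : N ∣ M)

/-- Squaring on units. -/
abbrev sqUnits (N : ℕ) : (ZMod N)ˣ →* (ZMod N)ˣ := powMonoidHom 2

/-- `-1` squares to one. -/
lemma sqUnits_neg_one (N : ℕ) : sqUnits N (-1) = 1 := by simp

/-- `N ∣ M N²`. -/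
lemma dvd_split (N M : ℕ) : N ∣ M * N ^ 2 := ⟨M * N, by ring⟩

/-- The split level subgroup. -/
abbrev splitGroup (N M : ℕ) : Subgroup SL(2, ℤ) := gammaH (sqUnits N) (dvd_split N M)

section

omit [NeZero N]

/-- The split group has good level `M N²`. -/
lemma goodLevel_split : ES.GoodLevel (M * N ^ 2) (splitGroup N M) :=
  goodLevel_gammaH (hNM := dvd_split N M) (sqUnits_neg_one N)

/-- The class of an element is its lower right entry. -/
lemma coe_gammaClass {L : ℕ} (h : N ∣ L) (g : Gamma0 L) :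
    ((gammaClass (MonoidHom.id (ZMod N)ˣ) h g : (ZMod N)ˣ) : ZMod N) =
      (((g : SL(2, ℤ)) 1 1 : ℤ) : ZMod N) := by
  exact coe_lowerRightUnit _

/-- Classes compose with characters. -/
lemma gammaClass_comp {Δ' : Type*} [CommGroup Δ'] (ε : (ZMod N)ˣ →* Δ') {L : ℕ} (h : N ∣ L)
    (g : Gamma0 L) : gammaClass ε h g = ε (gammaClass (MonoidHom.id (ZMod N)ˣ) h g) := rfl

/-- The properties of the entries of an element of the split group. -/
theorem split_entries (γ : splitGroup N M) :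
    (∃ z : ℤ, (γ : SL(2, ℤ)) 1 0 = (M : ℤ) * (N : ℤ) ^ 2 * z) ∧
      (N : ℤ) ∣ (γ : SL(2, ℤ)) 1 1 - (γ : SL(2, ℤ)) 0 0 ∧
      (N : ℤ) ∣ (γ : SL(2, ℤ)) 1 1 ^ 2 - 1 := by
  obtain ⟨h0, hc⟩ := (mem_gammaH_iff _ _).mp γ.2
  obtain ⟨z, hz⟩ := (ZMod.intCast_zmod_eq_zero_iff_dvd _ _).mp (Gamma0_mem.mp h0)
  have hd : (N : ℤ) ∣ (γ : SL(2, ℤ)) 1 1 ^ 2 - 1 := by
    rw [gammaClass_comp] at hc
    have h1 := congrArg (fun u : (ZMod N)ˣ => (u : ZMod N)) hc
    simp only [powMonoidHom_apply, Units.val_pow_eq_pow_val, coe_gammaClass, Units.val_one] at h1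
    rw [← ZMod.intCast_zmod_eq_zero_iff_dvd]
    push_cast
    rw [h1, sub_self]
  refine ⟨⟨z, by rw [hz]; push_cast; ring⟩, ?_, hd⟩
  have hdet := (γ : SL(2, ℤ)).det_coe
  rw [Matrix.det_fin_two] at hdet
  obtain ⟨w, hw⟩ := hd
  -- a - d = a (1 - d²) + d (a d - 1)
  refine ⟨(γ : SL(2, ℤ)) 0 0 * w -
    (γ : SL(2, ℤ)) 1 1 * (γ : SL(2, ℤ)) 0 1 * M * N * z, ?_⟩
  have hz' : (γ : SL(2, ℤ)) 1 0 = (M : ℤ) * (N : ℤ) ^ 2 * z := by rw [hz]; push_cast; ring
  linear_combination (γ : SL(2, ℤ)) 0 0 * hw - (γ : SL(2, ℤ)) 1 1 * hdet -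
    (γ : SL(2, ℤ)) 1 1 * (γ : SL(2, ℤ)) 0 1 * hz'

end

/-- The translation matrix. -/
def shiftMat (N : ℕ) (u : ℤ) : Matrix (Fin 2) (Fin 2) ℤ := !![(N : ℤ), u; 0, (N : ℤ)]

/-- The translation matrix has nonzero determinant. -/
lemma det_shiftMat_ne (u : ℤ) : (shiftMat N u).det ≠ 0 := by
  simp [shiftMat, Matrix.det_fin_two, NeZero.ne N]

/-- The translation matrix can be cancelled on the right. -/
lemma shift_cancel {u : ℤ} {g g' : SL(2, ℤ)}
    (h : (g : Matrix (Fin 2) (Fin 2) ℤ) * shiftMat N u =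
      (g' : Matrix (Fin 2) (Fin 2) ℤ) * shiftMat N u) :
    g = g' := by
  have h1 := congrArg (fun X => X * (shiftMat N u).adjugate) h
  simp only [Matrix.mul_assoc, Matrix.mul_adjugate, Matrix.mul_smul, mul_one] at h1
  exact Subtype.ext (smul_right_injective _ (det_shiftMat_ne u) h1)

omit [NeZero N] in
/-- An element nearly diagonal modulo `R = N / q` moved through translations by multiples of
`q`. -/
theorem exists_conj_shift {q R : ℕ} (hqR : q * R = N) (P : SL(2, ℤ)) {u v z y : ℤ}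
    (hz : P 1 0 = (M : ℤ) * (R : ℤ) ^ 2 * z) (hy : u * P 1 1 - v * P 0 0 = (R : ℤ) * y) :
    ∃ (hP : P ∈ Gamma0 M) (ε' : Gamma0 M),
      shiftMat N (q * u) * (P : Matrix (Fin 2) (Fin 2) ℤ) =
          ((ε' : SL(2, ℤ)) : Matrix (Fin 2) (Fin 2) ℤ) * shiftMat N (q * v) ∧
      gammaClass δ hNM ε' = gammaClass δ hNM ⟨P, hP⟩ := by
  set a := P 0 0
  set b := P 0 1
  set c := P 1 0
  set d := P 1 1
  have hdet : a * d - b * c = 1 := by rw [← Matrix.det_fin_two]; exact P.det_coe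
  have hN' : (N : ℤ) = q * R := by rw [← hqR]; push_cast; ring
  let g : SL(2, ℤ) := ⟨!![a + u * (M * R * z), b + y - u * v * (M * z); c, d - v * (M * R * z)], by
    rw [Matrix.det_fin_two_of]
    linear_combination hdet + (M * z * u * v - y) * hz + M * R * z * hy⟩
  have hP : P ∈ Gamma0 M := Gamma0_mem.mpr (by
    rw [ZMod.intCast_zmod_eq_zero_iff_dvd]
    exact ⟨(R : ℤ) ^ 2 * z, by show c = _; rw [hz]; ring⟩)
  have hg0 : g ∈ Gamma0 M := Gamma0_mem.mpr (Gamma0_mem.mp hP :)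
  refine ⟨hP, ⟨g, hg0⟩, ?_, congrArg δ (Units.ext ?_)⟩
  · rw [show (P : Matrix (Fin 2) (Fin 2) ℤ) = !![a, b; c, d] from Matrix.eta_fin_two _]
    ext i j
    fin_cases i <;> fin_cases j <;> simp [g, shiftMat, Matrix.mul_apply, Fin.sum_univ_two, hN']
    · linear_combination q * u * hz
    · linear_combination q * hy
    · ring
    · linear_combination -(q * v) * hz
  · rw [coe_lowerRightUnit, coe_lowerRightUnit]
    show ((d - v * (M * R * z) : ℤ) : ZMod N) = (d : ZMod N)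
    push_cast
    rw [(ZMod.natCast_eq_zero_iff M N).mpr hNM]
    simp

omit [NeZero N] in
/-- An element of level `M N²` moved through translations. -/
theorem exists_conj_of_level (ε : Gamma0 (M * N ^ 2)) {u v : ℤ}
    (hv : ((v : ℤ) : ZMod N) * (((ε : SL(2, ℤ)) 0 0 : ℤ) : ZMod N) =
      ((u : ℤ) : ZMod N) * (((ε : SL(2, ℤ)) 1 1 : ℤ) : ZMod N)) :
    ∃ ε' : Gamma0 M,
      shiftMat N u * ((ε : SL(2, ℤ)) : Matrix (Fin 2) (Fin 2) ℤ) =
          ((ε' : SL(2, ℤ)) : Matrix (Fin 2) (Fin 2) ℤ) * shiftMat N v ∧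
      gammaClass δ hNM ε' = δ (gammaClass (MonoidHom.id _) (dvd_split N M) ε) := by
  obtain ⟨z, hz⟩ := (ZMod.intCast_zmod_eq_zero_iff_dvd _ _).mp (Gamma0_mem.mp ε.2)
  push_cast at hz
  rw [← Int.cast_mul, ← Int.cast_mul, ZMod.intCast_eq_intCast_iff_dvd_sub] at hv
  obtain ⟨y, hy⟩ := hv
  obtain ⟨_, ε', h, hc⟩ := exists_conj_shift hNM (δ := δ) (one_mul N) ε.1 hz hy
  exact ⟨ε', by simpa using h, hc⟩

omit [NeZero N] in
/-- An element of `Γ_H` moved through the translation. -/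
theorem exists_shift (hsq : ∀ x : (ZMod N)ˣ, x ^ 2 = 1 → δ x = 1) (u : ℤ) (γ : splitGroup N M) :
    ∃ g : gammaH δ hNM, shiftMat N u * ((γ : SL(2, ℤ)) : Matrix (Fin 2) (Fin 2) ℤ) =
      ((g : SL(2, ℤ)) : Matrix (Fin 2) (Fin 2) ℤ) * shiftMat N u := by
  obtain ⟨h0, hc⟩ := (mem_gammaH_iff _ _).mp γ.2
  obtain ⟨ε', h, hcl⟩ := exists_conj_of_level hNM (δ := δ) (ε := ⟨(γ : SL(2, ℤ)), h0⟩)
    (u := u) (v := u) (congrArg _
      ((ZMod.intCast_eq_intCast_iff_dvd_sub _ _ N).mpr (split_entries γ).2.1))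
  refine ⟨⟨ε', (mem_gammaH_iff δ hNM).mpr ⟨ε'.2, ?_⟩⟩, h⟩
  rw [gammaClass_comp] at hc
  exact hcl.trans (hsq _ hc)

variable (hsq : ∀ x : (ZMod N)ˣ, x ^ 2 = 1 → δ x = 1)

/-- Conjugation by the translation. -/
def shiftHom (u : ℤ) : splitGroup N M →* gammaH δ hNM where
  toFun γ := (exists_shift hNM hsq u γ).choose
  map_one' := Subtype.ext (shift_cancel (u := u) (N := N) (by
    rw [← (exists_shift hNM hsq u 1).choose_spec]
    simp))
  map_mul' γ γ' := Subtype.ext (shift_cancel (u := u) (N := N) (by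
    rw [← (exists_shift hNM hsq u (γ * γ')).choose_spec]
    simp only [Subgroup.coe_mul, Matrix.SpecialLinearGroup.coe_mul]
    rw [mul_assoc, ← (exists_shift hNM hsq u γ').choose_spec, ← mul_assoc, ← mul_assoc]
    exact congrArg (fun X : Matrix (Fin 2) (Fin 2) ℤ => X * (γ' : SL(2, ℤ)).1)
      (exists_shift hNM hsq u γ).choose_spec))

/-- The defining property of `shiftHom`. -/
lemma shiftHom_spec (u : ℤ) (γ : splitGroup N M) :
    shiftMat N u * ((γ : SL(2, ℤ)) : Matrix (Fin 2) (Fin 2) ℤ) =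
      ((shiftHom hNM hsq u γ : SL(2, ℤ)) : Matrix (Fin 2) (Fin 2) ℤ) * shiftMat N u :=
  (exists_shift hNM hsq u γ).choose_spec

/-- Conjugation by the translation preserves the trace. -/
lemma trace_shiftHom (u : ℤ) (γ : splitGroup N M) :
    ((shiftHom hNM hsq u γ : SL(2, ℤ)) : Matrix (Fin 2) (Fin 2) ℤ).trace =
      ((γ : SL(2, ℤ)) : Matrix (Fin 2) (Fin 2) ℤ).trace := by
  have h := congrArg (fun X => (shiftMat N u).adjugate * X) (shiftHom_spec hNM hsq u γ)
  simp only [← mul_assoc, Matrix.adjugate_mul] at h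
  have h1 := congrArg Matrix.trace h
  rw [Matrix.trace_mul_comm _ (shiftMat N u), ← mul_assoc, Matrix.mul_adjugate, smul_mul_assoc,
    one_mul, smul_mul_assoc, one_mul, Matrix.trace_smul, Matrix.trace_smul] at h1
  exact (smul_right_injective ℤ (det_shiftMat_ne u) h1).symm

lemma shiftHom_mem_parGroup (u : ℤ) {n : ℕ} (φ : parGroup (gammaH δ hNM) n) :
    (φ : gammaH δ hNM →* ℂˣ).comp (shiftHom hNM hsq u) ∈ parGroup (splitGroup N M) n :=
  ⟨MonoidHom.ext fun γ => by simpa using DFunLike.congr_fun φ.2.1 (shiftHom hNM hsq u γ),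
    fun γ hγ => φ.2.2 _ (by rw [trace_shiftHom]; exact hγ)⟩

/-- The translated character. -/
def shiftChar (u : ℤ) {n : ℕ} (φ : parGroup (gammaH δ hNM) n) : parGroup (splitGroup N M) n :=
  ⟨_, shiftHom_mem_parGroup hNM hsq u φ⟩

/-- The translation only depends on the class of `u` modulo `N`. -/
theorem comp_shiftHom_congr {A : Type*} [CommMonoid A] (φ : gammaH δ hNM →* A) {u v : ℤ}
    (h : (u : ZMod N) = v) : φ.comp (shiftHom hNM hsq u) = φ.comp (shiftHom hNM hsq v) := by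
  obtain ⟨k, hk⟩ := (ZMod.intCast_eq_intCast_iff_dvd_sub v u N).mp h.symm
  let t : SL(2, ℤ) := ⟨!![1, k; 0, 1], by simp [Matrix.det_fin_two_of]⟩
  have ht0 : t ∈ Gamma0 M := Gamma0_mem.mpr (by simp [t])
  have htc : gammaClass δ hNM ⟨t, ht0⟩ = 1 := by
    refine (congrArg δ (Units.ext ?_)).trans (map_one δ)
    rw [coe_lowerRightUnit]
    simp [t]
  set el : gammaH δ hNM := ⟨t, (mem_gammaH_iff δ hNM).mpr ⟨ht0, htc⟩⟩
  refine MonoidHom.ext fun γ => ?_
  have hA : shiftMat N u = (t : Matrix (Fin 2) (Fin 2) ℤ) * shiftMat N v := by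
    ext i j
    fin_cases i <;> fin_cases j <;> simp [t, shiftMat, Matrix.mul_apply, Fin.sum_univ_two]
    linear_combination hk
  have e : shiftHom hNM hsq u γ * el = el * shiftHom hNM hsq v γ := by
    refine Subtype.ext (shift_cancel (u := v) (N := N) ?_)
    simp only [Subgroup.coe_mul, Matrix.SpecialLinearGroup.coe_mul, el]
    rw [mul_assoc, ← hA, ← shiftHom_spec, mul_assoc, ← shiftHom_spec, ← mul_assoc, ← hA]
  have e2 := congrArg φ e
  rw [map_mul, map_mul, mul_comm] at e2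
  have hu : φ el⁻¹ * φ el = 1 := by rw [← map_mul, inv_mul_cancel, map_one]
  calc φ (shiftHom hNM hsq u γ) = φ el⁻¹ * (φ el * φ (shiftHom hNM hsq u γ)) := by
        rw [← mul_assoc, hu, one_mul]
    _ = φ (shiftHom hNM hsq v γ) := by rw [e2, ← mul_assoc, hu, one_mul]

section Forms

variable {k : ℤ} {φ : gammaH δ hNM →* ℂˣ} {v : ℍ → ℂ}

theorem isTwist_shift (hv : IsTwist (gammaH δ hNM) k φ v) (u : ℤ) :
    IsTwist (splitGroup N M) k (φ.comp (shiftHom hNM hsq u))
      (v ∣[k] intGL (shiftMat N u) (det_shiftMat_ne u)) where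
  mdiff := hv.mdiff.slash k _
  slash γ := by
    have e : intGL (shiftMat N u) (det_shiftMat_ne u) * ((γ : SL(2, ℤ)) : GL (Fin 2) ℝ) =
        ((shiftHom hNM hsq u γ : SL(2, ℤ)) : GL (Fin 2) ℝ) *
          intGL (shiftMat N u) (det_shiftMat_ne u) := by
      ext i j
      have := congrFun (congrFun (congrArg (fun X : Matrix (Fin 2) (Fin 2) ℤ =>
        X.map (Int.cast : ℤ → ℝ)) (shiftHom_spec hNM hsq u γ)) i) j
      simpa [Matrix.mul_apply, Fin.sum_univ_two] using this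
    rw [ModularForm.SL_slash, ← SlashAction.slash_mul, e, SlashAction.slash_mul,
      ← ModularForm.SL_slash, hv.slash (shiftHom hNM hsq u γ),
      show (fun τ => ((φ (shiftHom hNM hsq u γ) : ℂˣ) : ℂ) * v τ) =
        ((φ (shiftHom hNM hsq u γ) : ℂˣ) : ℂ) • v from rfl, ModularForm.smul_slash]
    funext τ
    have hpos : 0 < (intGL (shiftMat N u) (det_shiftMat_ne u)).val.det := by
      rw [Matrix.det_fin_two]
      simp [shiftMat, NeZero.ne N]
    simp [UpperHalfPlane.σ, hpos]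
  bdd γ := by
    rw [ModularForm.SL_slash, ← SlashAction.slash_mul]
    refine hv.bdd_of_int _ fun a b => ⟨(shiftMat N u * (γ : Matrix (Fin 2) (Fin 2) ℤ)) a b, ?_⟩
    simp [Units.val_mul, Matrix.mul_apply, Fin.sum_univ_two]

/-- The slash by the translation is translation of the argument up to a constant. -/
theorem shift_apply (u : ℕ) (τ : ℍ) (τ' : ℍ) (hτ' : (τ' : ℂ) = τ + (u : ℂ) / N) :
    (v ∣[k] intGL (shiftMat N (u : ℤ)) (det_shiftMat_ne (u : ℤ))) τ =
      (N : ℂ) ^ (2 * (k - 1) - k) * v τ' := by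
  rw [ModularForm.slash_apply]
  have hpos : 0 < (intGL (shiftMat N (u : ℤ)) (det_shiftMat_ne (u : ℤ))).val.det := by
    rw [Matrix.det_fin_two]
    simp [shiftMat, NeZero.ne N]
  have hsmul : intGL (shiftMat N (u : ℤ)) (det_shiftMat_ne (u : ℤ)) • τ = τ' := by
    refine UpperHalfPlane.ext ?_
    rw [UpperHalfPlane.coe_smul, hτ']
    have hN : (N : ℂ) ≠ 0 := Nat.cast_ne_zero.mpr (NeZero.ne N)
    simp [UpperHalfPlane.σ, UpperHalfPlane.num, UpperHalfPlane.denom, shiftMat, Matrix.det_fin_two,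
      NeZero.ne N]
    field_simp
  rw [hsmul]
  have hN : (N : ℂ) ≠ 0 := Nat.cast_ne_zero.mpr (NeZero.ne N)
  simp [UpperHalfPlane.σ, UpperHalfPlane.denom, shiftMat, Matrix.det_fin_two, NeZero.ne N]
  rw [mul_zpow, ← zpow_add₀ hN, mul_assoc, ← div_eq_mul_inv, ← zpow_sub₀ hN, mul_comm]
  ring_nf

theorem hasExp_shift_translate {c : PowerSeries ℂ} (hc : HasExp 1 v c) (u : ℕ) :
    HasExp 1 (v ∣[k] intGL (shiftMat N (u : ℤ)) (det_shiftMat_ne (u : ℤ)))
      (PowerSeries.C ((N : ℂ) ^ (2 * (k - 1) - k)) * PowerSeries.rescale (zetaC N ^ u) c) := by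
  intro τ
  let τ' : ℍ := ⟨(τ : ℂ) + (u : ℂ) / N, by simpa [Complex.div_natCast_im] using τ.im_pos⟩
  rw [shift_apply u τ τ' rfl]
  have hq : qm 1 τ' = zetaC N ^ u * qm 1 τ := by
    rw [ES.qm_eq, ES.qm_eq, zetaC, ← Complex.exp_nat_mul, ← Complex.exp_add]
    congr 1
    show 2 * (Real.pi : ℂ) * Complex.I * ((τ : ℂ) + (u : ℂ) / N) / (1 : ℕ) = _
    push_cast
    ring
  refine ((hc τ').mul_left _).congr_fun fun e => ?_
  rw [PowerSeries.coeff_C_mul, PowerSeries.coeff_rescale, hq]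
  ring

end Forms

section Galois

variable [NeZero M] (hneg : δ (-1) = 1) {n : ℕ} [NeZero n]

/-- Conjugation permutes the translations. -/
theorem conjChar_shiftChar (σ : ℂ ≃+* ℂ) {a : ℕ} (hσ : σ (zetaC N) = zetaC N ^ a) (u : ℕ)
    (φ : parGroup (gammaH δ hNM) n) :
    conjChar goodLevel_split σ (shiftChar hNM hsq u φ) =
      shiftChar hNM hsq ((a * u : ℕ) : ℤ) (conjChar (goodLevel_gammaH (hNM := hNM) hneg) σ φ) := by
  set hG := goodLevel_gammaH (hNM := hNM) hneg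
  obtain ⟨i, v, v', c, hv, hv0, hv', -, hc, hc'⟩ := ES.conjChar_spec hG σ φ
  have h12 : 12 * M ≠ 0 := NeZero.ne (12 * M)
  have hc1 := ES.hasExp_one_twist hG.T_mem φ.2.2 hv
  have hc1' := ES.hasExp_one_twist hG.T_mem (conjChar hG σ φ).2.2 hv'
  rw [series_one_map h12 hc1 hc1' hc hc'] at hc1'
  set c1 := qExpansion ((1 : ℕ) : ℝ) v
  set C : ℂ := (N : ℂ) ^ (2 * (((2 * i : ℕ) : ℤ) - 1) - ((2 * i : ℕ) : ℤ))
  have hU := hasExp_shift_translate (N := N) (k := ((2 * i : ℕ) : ℤ)) hc1 u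
  have hU' := hasExp_shift_translate (N := N) (k := ((2 * i : ℕ) : ℤ)) hc1' (a * u)
  refine isConjTwist_of_series (sqUnits_neg_one N) one_ne_zero
    (isTwist_shift hNM hsq hv u) (isTwist_shift hNM hsq hv' _) hU ?_ ?_
  · intro h0
    refine hv0 (hc1.eq_of_series ?_)
    have : c1 = 0 := by
      ext e
      have := congrArg (PowerSeries.coeff e) h0
      rw [PowerSeries.coeff_C_mul, PowerSeries.coeff_rescale, map_zero] at this
      have hz : zetaC N ≠ 0 := Complex.exp_ne_zero _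
      simpa [C, NeZero.ne N, hz, zpow_ne_zero] using this
    rw [this]
    exact HasExp.zero
  · convert hU' using 1
    ext e
    rw [PowerSeries.coeff_map, PowerSeries.coeff_C_mul, PowerSeries.coeff_rescale,
      PowerSeries.coeff_C_mul, PowerSeries.coeff_rescale, PowerSeries.coeff_map, map_mul, map_mul,
      map_pow, map_pow, map_zpow₀, map_natCast, RingEquiv.coe_toRingHom, hσ,
      ← pow_mul (zetaC N) a u]

/-- The exponent of an automorphism on the roots of unity of order `N`. -/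
theorem autC_zetaC (g : GQ) : autC g (zetaC N) = zetaC N ^ (cycloN N g : ZMod N).val := by
  obtain ⟨a, ha, hσ⟩ := ES.exists_unit_exponent N (autC g)
  have hz := ES.zetaC_isPrimitiveRoot N
  have h : cycloN N g = ha.unit := by
    refine cycloN_eq fun t ht => ES.embC.toRingHom.injective ?_
    show embC (g t) = embC (t ^ (ha.unit : ZMod N).val)
    rw [← ES.autC_spec, map_pow]
    obtain ⟨j, -, hj⟩ :=
      hz.eq_pow_of_pow_eq_one (show embC t ^ N = 1 by rw [← map_pow, ht, map_one])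
    rw [← hj, map_pow, hσ, ← pow_mul, ← pow_mul, IsUnit.unit_spec, ZMod.val_natCast,
      mul_comm j, pow_mul, pow_mul, ← pow_eq_pow_mod a hz.pow_eq_one]
  rw [h, hσ, IsUnit.unit_spec, ZMod.val_natCast, ← pow_eq_pow_mod a hz.pow_eq_one]

/-- **Galois permutes the translations.** -/
theorem galChar_shiftChar (g : GQ) (u : ZMod N) (φ : parGroup (gammaH δ hNM) n) :
    galChar goodLevel_split n g (shiftChar hNM hsq u.val φ) =
      shiftChar hNM hsq (((cycloN N g : ZMod N) * u).val : ℕ)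
        (galChar (goodLevel_gammaH (hNM := hNM) hneg) n g φ) := by
  refine (conjChar_shiftChar hNM hsq hneg (autC g) (autC_zetaC g) u.val φ).trans
    (Subtype.ext (comp_shiftHom_congr hNM hsq _ ?_))
  push_cast
  simp

end Galois

end FermatAgent.Flat.Split
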