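import Fermat.Agent.Flat.Split.Germ

/-!
# A homomorphism of `Γ_H` seen at the split level

For a homomorphism `Φ` on `Γ_H` the values `w ↦ Φ (α_w γ α_w⁻¹)` on the split group, and their
behaviour under conjugation.
-/

set_option autoImplicit false

open CongruenceSubgroup
open scoped MatrixGroups
open FermatAgent.HM

noncomputable section

namespace FermatAgent.Flat.Split

variable {Δ : Type*} [CommGroup Δ] {N M : ℕ} [NeZero N]
variable {δ : (ZMod N)ˣ →* Δ} (hNM : N ∣ M) (hsq : ∀ x : (ZMod N)ˣ, x ^ 2 = 1 → δ x = 1)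
variable {K : Type*} [Field K] (Φ : Additive (gammaH δ hNM) →+ K)

local notation "Mat2Z" => Matrix (Fin 2) (Fin 2) ℤ

omit [NeZero N] in
lemma shiftMat_mul (u v : ℤ) :
    shiftMat N u * shiftMat N v = (N : ℤ) • shiftMat N (u + v) := by
  ext i j
  fin_cases i <;> fin_cases j <;> simp [shiftMat, Matrix.mul_apply, Fin.sum_univ_two]
  ring

/-- The values along the translations. -/
def transVal (γ : splitGroup N M) (w : ZMod N) : K :=
  Φ (Additive.ofMul (shiftHom hNM hsq (w.val : ℤ) γ))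

lemma transVal_eq (γ : splitGroup N M) (u : ℤ) :
    transVal hNM hsq Φ γ (u : ZMod N) = Φ (Additive.ofMul (shiftHom hNM hsq u γ)) := by
  have h := DFunLike.congr_fun (comp_shiftHom_congr hNM hsq (AddMonoidHom.toMultiplicativeRight Φ)
    (u := ((u : ZMod N).val : ℤ)) (v := u) (by simp)) γ
  exact congrArg Multiplicative.toAdd h

/-- The values along the translations are additive. -/
lemma transVal_mul (a b : splitGroup N M) (w : ZMod N) :
    transVal hNM hsq Φ (a * b) w = transVal hNM hsq Φ a w + transVal hNM hsq Φ b w := by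
  rw [transVal, map_mul]
  exact map_add Φ _ _

/-- Conjugating by a translation moves the argument. -/
theorem transVal_shift {γ γ' : splitGroup N M} {m : ℤ}
    (h : shiftMat N m * ((γ : SL(2, ℤ)) : Mat2Z) = ((γ' : SL(2, ℤ)) : Mat2Z) * shiftMat N m)
    (w : ZMod N) : transVal hNM hsq Φ γ' w = transVal hNM hsq Φ γ (w + m) := by
  obtain ⟨u, rfl⟩ := ZMod.intCast_surjective w
  rw [← Int.cast_add, transVal_eq, transVal_eq]
  have e : shiftHom hNM hsq u γ' = shiftHom hNM hsq (u + m) γ := by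
    refine Subtype.ext (shift_cancel (u := u + m) (N := N) ?_)
    rw [← shiftHom_spec]
    have h1 : ((shiftHom hNM hsq u γ' : SL(2, ℤ)) : Mat2Z) * (shiftMat N u * shiftMat N m) =
        shiftMat N u * shiftMat N m * ((γ : SL(2, ℤ)) : Mat2Z) := by
      rw [← mul_assoc, ← shiftHom_spec, mul_assoc, ← h, ← mul_assoc]
    rw [shiftMat_mul, mul_smul_comm, smul_mul_assoc] at h1
    exact smul_right_injective _ (Int.natCast_ne_zero.mpr (NeZero.ne N)) h1
  rw [e]

omit [NeZero N] in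
/-- Equivariance under conjugation by `Γ₀(M)`. -/
theorem map_conjGammaH_congr {ε ε' : Gamma0 M} (h : gammaClass δ hNM ε = gammaClass δ hNM ε')
    (x : gammaH δ hNM) :
    Φ (Additive.ofMul (conjGammaH ε x)) = Φ (Additive.ofMul (conjGammaH ε' x)) :=
  congrArg Multiplicative.toAdd
    (DFunLike.congr_fun (comp_conjGammaH_congr (AddMonoidHom.toMultiplicativeRight Φ) h) x)

/-- Conjugated translations: if `α_u ε = ε' α_v` then conjugation by `ε'` moves `u` to `v`. -/
theorem conjGammaH_shiftHom {γ γ' : splitGroup N M} {ε : SL(2, ℤ)} {ε' : Gamma0 M} {u v : ℤ}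
    (h : shiftMat N u * (ε : Mat2Z) = ((ε' : SL(2, ℤ)) : Mat2Z) * shiftMat N v)
    (hγ : (ε : Mat2Z) * ((γ' : SL(2, ℤ)) : Mat2Z) = ((γ : SL(2, ℤ)) : Mat2Z) * (ε : Mat2Z)) :
    conjGammaH ε' (shiftHom hNM hsq u γ) = shiftHom hNM hsq v γ' := by
  refine Subtype.ext ?_
  show (ε' : SL(2, ℤ))⁻¹ * (shiftHom hNM hsq u γ : SL(2, ℤ)) * (ε' : SL(2, ℤ)) = _
  rw [mul_assoc, inv_mul_eq_iff_eq_mul]
  refine shift_cancel (u := v) (N := N) ?_
  simp only [Matrix.SpecialLinearGroup.coe_mul]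
  rw [mul_assoc, ← h, mul_assoc, ← shiftHom_spec, ← mul_assoc, ← shiftHom_spec, ← mul_assoc, ← h,
    mul_assoc, mul_assoc, hγ]

omit [NeZero N] in
/-- An element nearly diagonal modulo `R = N / q`, moved through a translation by a multiple
of `q`. -/
theorem exists_conj_of_partial {q R : ℕ} (hqR : q * R = N) {P : SL(2, ℤ)}
    (hc : (M : ℤ) * (R : ℤ) ^ 2 ∣ P 1 0) (had : (R : ℤ) ∣ P 1 1 - P 0 0) {u : ℤ}
    (hu : (q : ℤ) ∣ u) :
    ∃ (hP : P ∈ Gamma0 M) (ε' : Gamma0 M),
      shiftMat N u * (P : Mat2Z) = ((ε' : SL(2, ℤ)) : Mat2Z) * shiftMat N u ∧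
      gammaClass δ hNM ε' = gammaClass δ hNM ⟨P, hP⟩ := by
  obtain ⟨z, hz⟩ := hc
  obtain ⟨y, hy⟩ := had
  obtain ⟨u', rfl⟩ := hu
  exact exists_conj_shift hNM hqR P hz (u := u') (v := u') (y := u' * y)
    (by linear_combination u' * hy)

end FermatAgent.Flat.Split
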